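import Mathlib

/-!
# S43 / Tower / Abs : the abstract algebra of the block TOWER (route TWX0, reports 408 / 420)

`V`, `Y` abelian groups, `T i`, `TY i` commuting families of endomorphisms ("Hecke operators"), `a i` integers.

* `gen T a`       : the generalised eigenspace `{x | ∀ i, ∃ m, (T i - a i) ^ m x = 0}`;
* `exists_eigen`  : a non zero `T`-stable subgroup of `gen T a` (in a finite group) contains a non zero eigenvector;
* `step_theta`    : from the RAW one-step theorem (`E x ∈ range δ` for `x` inertia invariant, `δ y = 0 → E' y = 0`) to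
                    `VI ⊓ gen T a ≤ δ (gen TY a)`;
* `step_inj`      : `δ` is injective on `gen TY a`;
* `card_step`, `card_triple` : the counting step of (CONTROL).
-/

set_option autoImplicit false

namespace Fermat.Agent.S43.Tower

variable {V Y : Type*} [AddCommGroup V] [AddCommGroup Y] {ι : Type*}

/-- The generalised eigenspace. -/
def gen (T : ι → AddMonoid.End V) (a : ι → ℤ) : AddSubgroup V where
  carrier := {x | ∀ i, ∃ m : ℕ, ((T i - a i • 1) ^ m) x = 0}
  zero_mem' := fun _ => ⟨0, map_zero _⟩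
  add_mem' := by
    intro x y hx hy i
    obtain ⟨m, hm⟩ := hx i
    obtain ⟨n, hn⟩ := hy i
    refine ⟨m + n, ?_⟩
    rw [map_add]
    have h1 : ((T i - a i • 1) ^ (m + n)) x = ((T i - a i • 1) ^ n) (((T i - a i • 1) ^ m) x) := by
      rw [add_comm, pow_add]; rfl
    have h2 : ((T i - a i • 1) ^ (m + n)) y = ((T i - a i • 1) ^ m) (((T i - a i • 1) ^ n) y) := by
      rw [pow_add]; rfl
    rw [h1, h2, hm, hn, map_zero, map_zero, add_zero]
  neg_mem' := by
    intro x hx i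
    obtain ⟨m, hm⟩ := hx i
    exact ⟨m, by rw [map_neg, hm, neg_zero]⟩

theorem mem_gen {T : ι → AddMonoid.End V} {a : ι → ℤ} {x : V} :
    x ∈ gen T a ↔ ∀ i, ∃ m : ℕ, ((T i - a i • 1) ^ m) x = 0 := Iff.rfl

/-- an eigenvector is a generalised eigenvector. -/
theorem mem_gen_of_eigen {T : ι → AddMonoid.End V} {a : ι → ℤ} {x : V} (h : ∀ i, T i x = a i • x) :
    x ∈ gen T a := fun i => ⟨1, by
    rw [pow_one]
    show T i x - a i • x = 0
    rw [h i, sub_self]⟩

theorem commute_sub_smul {f E : AddMonoid.End V} (h : Commute f E) (c : ℤ) :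
    Commute (f - c • 1) E :=
  h.sub_left ((Commute.one_left E).smul_left c)

/-- an endomorphism which commutes with the `T i` preserves `gen`. -/
theorem gen_stable {T : ι → AddMonoid.End V} {a : ι → ℤ} {E : AddMonoid.End V}
    (hE : ∀ i, Commute (T i) E) {x : V} (hx : x ∈ gen T a) : E x ∈ gen T a := by
  intro i
  obtain ⟨m, hm⟩ := hx i
  refine ⟨m, ?_⟩
  have h : Commute ((T i - a i • 1) ^ m) E := (commute_sub_smul (hE i) (a i)).pow_left m
  have h2 : ((T i - a i • 1) ^ m) (E x) = E (((T i - a i • 1) ^ m) x) :=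
    congrArg (fun f : AddMonoid.End V => f x) h.eq
  rw [h2, hm, map_zero]

/-- powers of intertwined endomorphisms are intertwined. -/
theorem pow_intertwine (δ : Y →+ V) {f : AddMonoid.End V} {g : AddMonoid.End Y}
    (h : ∀ y, f (δ y) = δ (g y)) (m : ℕ) (y : Y) : (f ^ m) (δ y) = δ ((g ^ m) y) := by
  induction m generalizing y with
  | zero => rfl
  | succ m ih =>
    have h1 : (f ^ (m + 1)) (δ y) = (f ^ m) (f (δ y)) := by rw [pow_succ]; rfl
    have h2 : (g ^ (m + 1)) y = (g ^ m) (g y) := by rw [pow_succ]; rfl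
    rw [h1, h2, h, ih]

theorem sub_smul_intertwine (δ : Y →+ V) {f : AddMonoid.End V} {g : AddMonoid.End Y}
    (h : ∀ y, f (δ y) = δ (g y)) (c : ℤ) (y : Y) : (f - c • 1) (δ y) = δ ((g - c • 1) y) := by
  show f (δ y) - c • δ y = δ (g y - c • y)
  rw [h, map_sub, map_zsmul]

/-- an intertwiner maps `gen` to `gen`. -/
theorem map_mem_gen (δ : Y →+ V) {T : ι → AddMonoid.End V} {TY : ι → AddMonoid.End Y} {a : ι → ℤ}
    (hTδ : ∀ i y, T i (δ y) = δ (TY i y)) {y : Y} (hy : y ∈ gen TY a) : δ y ∈ gen T a := by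
  intro i
  obtain ⟨m, hm⟩ := hy i
  exact ⟨m, by rw [pow_intertwine δ (sub_smul_intertwine δ (hTδ i) (a i)), hm, map_zero]⟩

/-- **Common eigenvectors.** -/
theorem exists_eigen [Finite V] {T : ι → AddMonoid.End V} {a : ι → ℤ}
    (hcomm : ∀ i j, Commute (T i) (T j)) (Z : AddSubgroup V) (hZ : Z ≠ ⊥)
    (hZT : ∀ i, ∀ x ∈ Z, T i x ∈ Z) (hZg : Z ≤ gen T a) :
    ∃ x ∈ Z, x ≠ 0 ∧ ∀ i, T i x = a i • x := by
  induction hn : Nat.card Z using Nat.strong_induction_on generalizing Z with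
  | _ n ih =>
    by_cases hall : ∀ i, ∀ x ∈ Z, T i x = a i • x
    · obtain ⟨x, hx0⟩ := (AddSubgroup.ne_bot_iff_exists_ne_zero).mp hZ
      exact ⟨x.1, x.2, fun h => hx0 (Subtype.ext h), fun i => hall i x.1 x.2⟩
    · push Not at hall
      obtain ⟨i, x₀, hx₀, hne⟩ := hall
      -- the kernel of `T i - a i` in `Z`
      let K : AddSubgroup V := Z ⊓ (T i - a i • 1 : AddMonoid.End V).ker
      have hKZ : K ≤ Z := inf_le_left
      have hKlt : K < Z := by
        refine lt_of_le_of_ne hKZ fun h => hne ?_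
        have h1 : x₀ ∈ K := h ▸ hx₀
        have h2 : (T i - a i • 1 : AddMonoid.End V) x₀ = 0 := h1.2
        exact sub_eq_zero.mp h2
      have hstabf : ∀ x ∈ Z, (T i - a i • 1 : AddMonoid.End V) x ∈ Z := fun x hx =>
        Z.sub_mem (hZT i x hx) (Z.zsmul_mem hx _)
      have hstabp : ∀ m : ℕ, ∀ x ∈ Z, ((T i - a i • 1 : AddMonoid.End V) ^ m) x ∈ Z := by
        intro m
        induction m with
        | zero => exact fun x hx => hx
        | succ m ihm =>
          intro x hx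
          have : ((T i - a i • 1 : AddMonoid.End V) ^ (m + 1)) x
              = ((T i - a i • 1 : AddMonoid.End V) ^ m) ((T i - a i • 1 : AddMonoid.End V) x) := by
            rw [pow_succ]; rfl
          rw [this]
          exact ihm _ (hstabf x hx)
      have hK0 : K ≠ ⊥ := by
        have hx₀0 : x₀ ≠ 0 := by
          rintro rfl
          exact hne (by rw [map_zero, smul_zero])
        obtain ⟨m, hm⟩ := hZg hx₀ i
        classical
        have hex : ∃ m : ℕ, ((T i - a i • 1 : AddMonoid.End V) ^ m) x₀ = 0 := ⟨m, hm⟩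
        have hspec := Nat.find_spec hex
        have hpos : Nat.find hex ≠ 0 := by
          intro h0
          rw [h0] at hspec
          exact hx₀0 hspec
        obtain ⟨m', hm'⟩ := Nat.exists_eq_succ_of_ne_zero hpos
        have hlt : m' < Nat.find hex := by omega
        have hne' := Nat.find_min hex hlt
        intro hbot
        have hmem : ((T i - a i • 1 : AddMonoid.End V) ^ m') x₀ ∈ K := by
          refine ⟨hstabp m' x₀ hx₀, ?_⟩
          show (T i - a i • 1 : AddMonoid.End V) (((T i - a i • 1 : AddMonoid.End V) ^ m') x₀) = 0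
          have : ((T i - a i • 1 : AddMonoid.End V) ^ (m' + 1)) x₀
              = (T i - a i • 1 : AddMonoid.End V) (((T i - a i • 1 : AddMonoid.End V) ^ m') x₀) := by
            rw [pow_succ']; rfl
          rw [← this, ← Nat.succ_eq_add_one, ← hm']
          exact hspec
        rw [hbot] at hmem
        exact hne' ((AddSubgroup.mem_bot).mp hmem)
      have hKT : ∀ j, ∀ x ∈ K, T j x ∈ K := by
        intro j x hx
        refine ⟨hZT j x hx.1, ?_⟩
        have h1 : (T i - a i • 1 : AddMonoid.End V) x = 0 := hx.2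
        have hc : Commute (T i - a i • 1 : AddMonoid.End V) (T j) := commute_sub_smul (hcomm i j) _
        have h2 : (T i - a i • 1 : AddMonoid.End V) (T j x) = T j ((T i - a i • 1 : AddMonoid.End V) x) :=
          congrArg (fun f : AddMonoid.End V => f x) hc.eq
        show (T i - a i • 1 : AddMonoid.End V) (T j x) = 0
        rw [h2, h1, map_zero]
      have hcard : Nat.card K < n := by
        rw [← hn]
        exact Set.ncard_lt_ncard (s := (K : Set V)) (t := (Z : Set V))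
          (SetLike.coe_ssubset_coe.mpr hKlt) (Set.toFinite _)
      obtain ⟨x, hx, hx0, hxe⟩ := ih _ hcard K hK0 hKT (hKZ.trans hZg) rfl
      exact ⟨x, hKZ hx, hx0, hxe⟩

/-- **From the raw one-step theorem to the `θ`-part.** -/
theorem step_theta [Finite V] {T : ι → AddMonoid.End V} {TY : ι → AddMonoid.End Y} {a : ι → ℤ}
    (E E' : AddMonoid.End V) (EY' : AddMonoid.End Y) (δ : Y →+ V)
    (hTδ : ∀ i y, T i (δ y) = δ (TY i y))
    (hE'δ : ∀ y, E' (δ y) = δ (EY' y))
    (hTE : ∀ i, Commute (T i) E) (hTE' : ∀ i, Commute (T i) E') (hTEY' : ∀ i, Commute (TY i) EY')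
    (VI : AddSubgroup V) (hVIE : ∀ x ∈ VI, E x ∈ VI) (hVIE' : ∀ x ∈ VI, E' x ∈ VI)
    (hmain : ∀ x ∈ VI, ∃ y, E x = δ y)
    (hinj : ∀ y, δ y = 0 → EY' y = 0)
    (hEinj : ∀ x ∈ gen T a, E x = 0 → x = 0) (hE'inj : ∀ x ∈ gen T a, E' x = 0 → x = 0)
    (x : V) (hxI : x ∈ VI) (hxg : x ∈ gen T a) : ∃ y ∈ gen TY a, x = δ y := by
  let Z : AddSubgroup V := VI ⊓ gen T a
  let f : Z → Z := fun z => ⟨E' (E z.1),
    hVIE' _ (hVIE _ z.2.1), gen_stable hTE' (gen_stable hTE z.2.2)⟩
  have hf : Function.Injective f := by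
    intro z w hzw
    have h1 : E' (E z.1) = E' (E w.1) := congrArg Subtype.val hzw
    have h2 : E' (E (z.1 - w.1)) = 0 := by rw [map_sub, map_sub, h1, sub_self]
    have hm : z.1 - w.1 ∈ gen T a := (gen T a).sub_mem z.2.2 w.2.2
    have h3 := hEinj _ hm (hE'inj _ (gen_stable hTE hm) h2)
    exact Subtype.ext (sub_eq_zero.mp h3)
  obtain ⟨x1, hx1⟩ := (Finite.injective_iff_surjective.mp hf) ⟨x, hxI, hxg⟩
  have hx1' : E' (E x1.1) = x := congrArg Subtype.val hx1
  obtain ⟨y, hy⟩ := hmain x1.1 x1.2.1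
  refine ⟨EY' y, ?_, by rw [← hE'δ, ← hy, hx1']⟩
  intro i
  have hg : δ y ∈ gen T a := hy ▸ gen_stable hTE x1.2.2
  obtain ⟨m, hm⟩ := hg i
  refine ⟨m, ?_⟩
  rw [pow_intertwine δ (sub_smul_intertwine δ (hTδ i) (a i))] at hm
  have h1 := hinj _ hm
  have hc : Commute ((TY i - a i • 1) ^ m) EY' := (commute_sub_smul (hTEY' i) (a i)).pow_left m
  have h2 : ((TY i - a i • 1) ^ m) (EY' y) = EY' (((TY i - a i • 1) ^ m) y) :=
    congrArg (fun f : AddMonoid.End Y => f y) hc.eq
  rw [h2, h1]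

/-- `δ` is injective on the `θ`-part. -/
theorem step_inj {TY : ι → AddMonoid.End Y} {a : ι → ℤ} (EY' : AddMonoid.End Y) (δ : Y →+ V)
    (hinj : ∀ y, δ y = 0 → EY' y = 0) (hEY'inj : ∀ y ∈ gen TY a, EY' y = 0 → y = 0)
    (y : Y) (hy : y ∈ gen TY a) (h : δ y = 0) : y = 0 :=
  hEY'inj y hy (hinj y h)

section count

variable {G : Type*} [Group G] [DistribMulAction G V] [DistribMulAction G Y]

/-- **The counting step of (CONTROL).** -/
theorem card_step [Finite Y] (δ : Y →+ V) (hδG : ∀ (g : G) (y : Y), δ (g • y) = g • δ y)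
    (AV : AddSubgroup V) (AY : AddSubgroup Y) (hAYG : ∀ (g : G), ∀ y ∈ AY, g • y ∈ AY)
    (hinj : ∀ y ∈ AY, δ y = 0 → y = 0) (I J : Set G)
    (hsurj : ∀ x ∈ AV, (∀ g ∈ I, g • x = x) → ∃ y ∈ AY, x = δ y) :
    Nat.card {x : V // x ∈ AV ∧ ∀ g ∈ I ∪ J, g • x = x} ≤
      Nat.card {y : Y // y ∈ AY ∧ ∀ g ∈ J, g • y = y} := by
  have hex : ∀ x : {x : V // x ∈ AV ∧ ∀ g ∈ I ∪ J, g • x = x}, ∃ y ∈ AY, x.1 = δ y := fun x =>
    hsurj x.1 x.2.1 fun g hg => x.2.2 g (Or.inl hg)
  choose c hc1 hc2 using hex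
  refine Nat.card_le_card_of_injective (fun x => ⟨c x, hc1 x, fun g hg => ?_⟩) ?_
  · have h1 : δ (g • c x - c x) = 0 := by
      rw [map_sub, hδG, ← hc2, x.2.2 g (Or.inr hg), sub_self]
    exact sub_eq_zero.mp (hinj _ (AY.sub_mem (hAYG g _ (hc1 x)) (hc1 x)) h1)
  · intro x x' h
    have h1 : c x = c x' := congrArg Subtype.val h
    exact Subtype.ext (by rw [hc2 x, hc2 x', h1])

/-- triples. -/
theorem card_triple (AV : AddSubgroup V) (J : Set G) :
    Nat.card {y : V × V × V // y ∈ AV.prod (AV.prod AV) ∧ ∀ g ∈ J, g • y = y} =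
      Nat.card {z : V // z ∈ AV ∧ ∀ g ∈ J, g • z = z} ^ 3 := by
  let S := {z : V // z ∈ AV ∧ ∀ g ∈ J, g • z = z}
  have e : {y : V × V × V // y ∈ AV.prod (AV.prod AV) ∧ ∀ g ∈ J, g • y = y} ≃ S × S × S :=
    { toFun := fun y => (⟨y.1.1, y.2.1.1, fun g hg => congrArg Prod.fst (y.2.2 g hg)⟩,
        ⟨y.1.2.1, y.2.1.2.1, fun g hg => congrArg (fun t => t.2.1) (y.2.2 g hg)⟩,
        ⟨y.1.2.2, y.2.1.2.2, fun g hg => congrArg (fun t => t.2.2) (y.2.2 g hg)⟩)
      invFun := fun t => ⟨(t.1.1, t.2.1.1, t.2.2.1), ⟨t.1.2.1, t.2.1.2.1, t.2.2.2.1⟩,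
        fun g hg => Prod.ext (t.1.2.2 g hg) (Prod.ext (t.2.1.2.2 g hg) (t.2.2.2.2 g hg))⟩
      left_inv := fun _ => rfl
      right_inv := fun _ => rfl }
  rw [Nat.card_congr e, Nat.card_prod, Nat.card_prod]
  ring

end count

end Fermat.Agent.S43.Tower
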