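import Fermat.Agent.S43.Tower.Defs

/-! # S43 / TOWER / Fixed : leaf A5 -/

set_option autoImplicit false

namespace Fermat.Agent.S43.Tower

open Fermat.Agent.S43.Ctrl (opE)

variable {G X : Type*} [Group G] [AddCommGroup X] [DistribMulAction G X]

/-- LEAF A5 (**fixed point lemma**).  PROOF: `H :=` image of `I` in `Equiv.Perm U` (or `AddAut U`), a finite group.  Every element has order a
power of `p`: `(τ - 1)^n = 0` on the finite group `U` uniformly in `x` (take the max), `p U = 0`, so `τ^(p^k) - 1 = (τ - 1)^(p^k) = 0` for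
`p^k ≥ n` (`sub_pow_char_pow_of_commute`-like in `AddMonoid.End U`, or by hand: `(1 + ν)^p = 1 + ν^p` when `p = 0`).  So `H` is a `p`-group
(`IsPGroup.of_card` or directly `IsPGroup`), `Nat.card U` is a power of `p` (`> 1`), and
`IsPGroup.exists_fixed_point_of_prime_dvd_card_of_fixed_point` (fixed point `0`) gives a second fixed point. -/
theorem exists_fixed (p : ℕ) [Fact p.Prime] (I : Subgroup G) (U : AddSubgroup X) [Finite U]
    (hp : ∀ x ∈ U, p • x = 0) (hU : ∀ τ ∈ I, ∀ x ∈ U, τ • x ∈ U)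
    (hunip : ∀ τ ∈ I, ∀ x ∈ U, ∃ n : ℕ, ((DistribMulAction.toAddMonoidEnd G X τ - 1) ^ n) x = 0)
    (hne : U ≠ ⊥) : ∃ x ∈ U, x ≠ 0 ∧ ∀ τ ∈ I, τ • x = x := by
  classical
  let act : DistribMulAction I U :=
    { smul := fun τ x => ⟨(τ : G) • (x : X), hU τ τ.2 x x.2⟩
      one_smul := fun x => Subtype.ext (one_smul G (x : X))
      mul_smul := fun a b x => Subtype.ext (mul_smul (a : G) (b : G) (x : X))
      smul_zero := fun a => Subtype.ext (smul_zero (a : G))
      smul_add := fun a x y => Subtype.ext (smul_add (a : G) (x : X) (y : X)) }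
  have hact : ∀ (τ : I) (x : U), ((τ • x : U) : X) = (τ : G) • (x : X) := fun _ _ => rfl
  obtain ⟨x₀, hx₀U, hx₀⟩ : ∃ x ∈ U, x ≠ 0 := by
    by_contra hcon
    push Not at hcon
    exact hne ((AddSubgroup.eq_bot_iff_forall U).mpr hcon)
  have hnt : Nontrivial (AddMonoid.End U) := by
    refine ⟨0, 1, fun h => hx₀ ?_⟩
    have := DFunLike.congr_fun h (⟨x₀, hx₀U⟩ : U)
    exact (congrArg Subtype.val this).symm
  have hchar : CharP (AddMonoid.End U) p := by
    rw [CharP.charP_iff_prime_eq_zero (Fact.out : p.Prime)]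
    ext x
    have : ((p : AddMonoid.End U) x) = p • x := by
      simp
    rw [this]
    simpa using hp x x.2
  have key : ∀ τ : I, ∃ k : ℕ, ∀ x : U, (τ ^ (p ^ k)) • x = x := by
    intro τ
    set t : AddMonoid.End U := DistribMulAction.toAddMonoidEnd I U τ with ht
    have hcoe : ∀ (n : ℕ) (x : U), (((t - 1) ^ n) x : X)
        = ((DistribMulAction.toAddMonoidEnd G X (τ : G) - 1) ^ n) (x : X) := by
      intro n
      induction n with
      | zero => intro x; rfl
      | succ n ih =>
        intro x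
        rw [pow_succ, pow_succ]
        change (((t - 1) ^ n) ((t - 1) x) : X) = _
        rw [ih]
        rfl
    choose nf hnf using fun x : U => hunip τ τ.2 x x.2
    obtain ⟨N, hN⟩ := (Set.finite_range nf).bddAbove
    have hz : (t - 1) ^ N = 0 := by
      ext x
      have h1 : nf x ≤ N := hN ⟨x, rfl⟩
      have h2 : ((t - 1) ^ (nf x)) x = 0 := Subtype.ext (by rw [hcoe]; exact hnf x)
      obtain ⟨c, hc⟩ := Nat.exists_eq_add_of_le h1
      rw [hc, add_comm, pow_add]
      change ((((t - 1) ^ c) (((t - 1) ^ nf x) x) : U) : X) = 0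
      rw [h2, map_zero]
      rfl
    refine ⟨N, fun x => ?_⟩
    have h3 : t ^ (p ^ N) = 1 := by
      have h4 : t = (t - 1) + 1 := by abel
      rw [h4, add_pow_char_pow_of_commute p N (Commute.one_right _), one_pow]
      have h5 : N ≤ p ^ N := (Nat.lt_pow_self (Fact.out : p.Prime).one_lt).le
      rw [pow_eq_zero_of_le h5 hz, zero_add]
    have h6 : DistribMulAction.toAddMonoidEnd I U (τ ^ (p ^ N)) = 1 := by
      rw [map_pow, ← ht, h3]
    exact DFunLike.congr_fun h6 x
  let φ : I →* Equiv.Perm U := MulAction.toPermHom I U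
  have hP : IsPGroup p φ.range := by
    rintro ⟨_, τ, rfl⟩
    obtain ⟨k, hk⟩ := key τ
    refine ⟨k, Subtype.ext ?_⟩
    change (φ τ) ^ (p ^ k) = 1
    rw [← map_pow]
    ext x
    exact congrArg Subtype.val (hk x)
  have hcard : p ∣ Nat.card U := by
    have h1 : addOrderOf (⟨x₀, hx₀U⟩ : U) = p := by
      apply addOrderOf_eq_prime
      · exact Subtype.ext (hp x₀ hx₀U)
      · intro h
        exact hx₀ (congrArg Subtype.val h)
    rw [← h1]
    exact addOrderOf_dvd_natCard _
  have h0 : (0 : U) ∈ MulAction.fixedPoints φ.range U := by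
    rintro ⟨_, τ, rfl⟩
    exact smul_zero τ
  obtain ⟨b, hb, hb0⟩ := hP.exists_fixed_point_of_prime_dvd_card_of_fixed_point U hcard h0
  refine ⟨b, b.2, fun h => hb0 (Subtype.ext h.symm), fun τ hτ => ?_⟩
  have := hb ⟨φ ⟨τ, hτ⟩, ⟨τ, hτ⟩, rfl⟩
  exact congrArg Subtype.val this

end Fermat.Agent.S43.Tower
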