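import Fermat.Agent.S43.Tower.Defs

/-! # S43 / TOWER / Frob : leaf A6 -/

set_option autoImplicit false

namespace Fermat.Agent.S43.Tower

open Fermat.Agent.S43.Ctrl (opE)

variable {X : Type*} [AddCommGroup X]

/-- Bezout: if `U P + V Q = c` with `c` prime to `p`, `Q(Φ)` nilpotent on `x`, `p x = 0` and `P(Φ) x = 0` then `x = 0`. -/
theorem bezout_inj (p : ℕ) [Fact p.Prime] (Φ : AddMonoid.End X) (P Q U V : Polynomial ℤ) (c : ℤ)
    (hB : U * P + V * Q = Polynomial.C c) (hc : ¬ (p : ℤ) ∣ c) (x : X) (hp : p • x = 0)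
    (hq : ∃ N : ℕ, ((Polynomial.aeval Φ Q) ^ N) x = 0) (h0 : Polynomial.aeval Φ P x = 0) : x = 0 := by
  obtain ⟨N, hN⟩ := hq
  obtain ⟨R, hR⟩ := sub_dvd_pow_sub_pow (Polynomial.C c) (V * Q) N
  have h1 : Polynomial.C c - V * Q = U * P := by rw [← hB]; ring
  have h2 : Polynomial.C c ^ N = V ^ N * Q ^ N + (U * R) * P := by
    have : Polynomial.C c ^ N = (V * Q) ^ N + (Polynomial.C c - V * Q) * R := by rw [← hR]; ring
    rw [this, h1]; ring
  have h3 := congrArg (fun f => (Polynomial.aeval Φ f) x) h2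
  simp only [map_add, map_mul, map_pow, Polynomial.aeval_C] at h3
  rw [end_add_apply, end_mul_apply, end_mul_apply, hN, h0, map_zero, map_zero, add_zero] at h3
  have h4 : (c ^ N) • x = 0 := by
    rw [← h3]
    have : (algebraMap ℤ (AddMonoid.End X) c) ^ N = ((c ^ N : ℤ) : AddMonoid.End X) := by
      rw [eq_intCast, Int.cast_pow]
    rw [this, end_intCast_apply]
  have hcop : IsCoprime (c ^ N) (p : ℤ) := by
    apply IsCoprime.pow_left
    have hpp : Prime (p : ℤ) := Nat.prime_iff_prime_int.mp (Fact.out : p.Prime)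
    exact ((hpp.coprime_iff_not_dvd).mpr hc).symm
  obtain ⟨a, b, hab⟩ := hcop
  have h5 : (1 : ℤ) • x = 0 := by
    rw [← hab, add_smul, mul_smul, mul_smul, h4, natCast_zsmul, hp, smul_zero, smul_zero, add_zero]
  simpa using h5

theorem quad_eq_aeval (t s : ℤ) (Φ : AddMonoid.End X) :
    quad t s Φ = Polynomial.aeval Φ
      (Polynomial.X ^ 2 - Polynomial.C t * Polynomial.X + Polynomial.C s : Polynomial ℤ) := by
  rw [map_add, map_sub, map_mul, map_pow, Polynomial.aeval_C, Polynomial.aeval_C, Polynomial.aeval_X,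
    eq_intCast, eq_intCast, sq, quad]

section factors

variable (p : ℕ) [Fact p.Prime] (t s : ℤ) (Φ : AddMonoid.End X)

include p in
theorem not_dvd_aux (hs : (p : ℤ) ∣ s - 1) (ht : ¬ (p : ℤ) ∣ t ^ 2 - 4) :
    ¬ (p : ℤ) ∣ s ∧ ¬ (p : ℤ) ∣ 1 - t + s ∧ ¬ (p : ℤ) ∣ (s + s * s) ^ 2 - t ^ 2 * (s * s) := by
  obtain ⟨k, hk⟩ := hs
  have hs' : s = 1 + p * k := by linarith
  have hpp : Prime (p : ℤ) := Nat.prime_iff_prime_int.mp (Fact.out : p.Prime)
  refine ⟨?_, ?_, ?_⟩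
  · rintro ⟨m, hm⟩
    have : (p : ℤ) ∣ 1 := ⟨m - k, by rw [mul_sub, ← hm, hs']; ring⟩
    exact hpp.not_dvd_one this
  · rintro ⟨m, hm⟩
    apply ht
    refine ⟨(k - m) * (2 + t), ?_⟩
    have : t = 2 + p * k - p * m := by rw [← hm, hs']; ring
    have h2 : (p : ℤ) * ((k - m) * (2 + t)) = (p * k - p * m) * (2 + t) := by ring
    rw [h2]
    have h3 : (p : ℤ) * k - p * m = t - 2 := by rw [this]; ring
    rw [h3]; ring
  · rintro ⟨m, hm⟩
    apply ht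
    -- `(s + s²)² - t² s² = s² ((1+s)² - t²)`, congruent to `4 - t²`
    have e : (s + s * s) ^ 2 - t ^ 2 * (s * s)
        = (4 - t ^ 2) + p * (k * ((s + 1) * ((1 + s) ^ 2 - t ^ 2) + (s + 3))) := by
      have hk' : (p : ℤ) * k = s - 1 := by rw [hs']; ring
      have : (p : ℤ) * (k * ((s + 1) * ((1 + s) ^ 2 - t ^ 2) + (s + 3)))
          = (p * k) * ((s + 1) * ((1 + s) ^ 2 - t ^ 2) + (s + 3)) := by ring
      rw [this, hk']; ring
    refine ⟨k * ((s + 1) * ((1 + s) ^ 2 - t ^ 2) + (s + 3)) - m, ?_⟩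
    rw [mul_sub, ← hm, e]; ring

theorem inj_frob (hs : (p : ℤ) ∣ s - 1) (ht : ¬ (p : ℤ) ∣ t ^ 2 - 4) (x : X) (hp : p • x = 0)
    (hq : ∃ N : ℕ, (quad t s Φ ^ N) x = 0) (h0 : Φ x = 0) : x = 0 := by
  refine bezout_inj p Φ Polynomial.X
    (Polynomial.X ^ 2 - Polynomial.C t * Polynomial.X + Polynomial.C s)
    (-(Polynomial.X - Polynomial.C t)) 1 s (by ring) (not_dvd_aux p t s hs ht).1 x hp ?_ ?_
  · rw [← quad_eq_aeval]; exact hq
  · rw [Polynomial.aeval_X]; exact h0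

theorem inj_frob_sub_one (hs : (p : ℤ) ∣ s - 1) (ht : ¬ (p : ℤ) ∣ t ^ 2 - 4) (x : X)
    (hp : p • x = 0) (hq : ∃ N : ℕ, (quad t s Φ ^ N) x = 0) (h0 : Φ x - x = 0) : x = 0 := by
  refine bezout_inj p Φ (Polynomial.X - 1)
    (Polynomial.X ^ 2 - Polynomial.C t * Polynomial.X + Polynomial.C s)
    (-(Polynomial.X + 1 - Polynomial.C t)) 1 (1 - t + s) ?_ (not_dvd_aux p t s hs ht).2.1 x hp ?_ ?_
  · simp only [map_add, map_sub, map_one]; ring
  · rw [← quad_eq_aeval]; exact hq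
  · rw [map_sub, Polynomial.aeval_X, map_one]; exact h0

theorem inj_opE (hs : (p : ℤ) ∣ s - 1) (ht : ¬ (p : ℤ) ∣ t ^ 2 - 4) (x : X)
    (hp : p • x = 0) (hq : ∃ N : ℕ, (quad t s Φ ^ N) x = 0) (h0 : opE s Φ x = 0) : x = 0 := by
  refine bezout_inj p Φ (Polynomial.X ^ 2 - Polynomial.C (s * s))
    (Polynomial.X ^ 2 - Polynomial.C t * Polynomial.X + Polynomial.C s)
    (-(Polynomial.C t * Polynomial.X + Polynomial.C (s + s * s)) + Polynomial.C (t ^ 2))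
    (Polynomial.C t * Polynomial.X + Polynomial.C (s + s * s))
    ((s + s * s) ^ 2 - t ^ 2 * (s * s)) ?_ (not_dvd_aux p t s hs ht).2.2 x hp ?_ ?_
  · simp only [map_add, map_sub, map_mul, map_pow]; ring
  · rw [← quad_eq_aeval]; exact hq
  · rw [map_sub, map_pow, Polynomial.aeval_X, Polynomial.aeval_C, eq_intCast, sq]; exact h0

omit [Fact p.Prime] in
theorem inj_smul (hs : (p : ℤ) ∣ s - 1) (x : X) (hp : p • x = 0) (h0 : s • x = 0) : x = 0 := by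
  obtain ⟨k, hk⟩ := hs
  have hs' : s = 1 + k * p := by linarith
  rw [hs', add_smul, one_smul, mul_smul, natCast_zsmul, hp, smul_zero, add_zero] at h0
  exact h0

end factors

theorem opE_mem (s : ℤ) (Φ : X →+ X) (W : AddSubgroup X) (hW : ∀ x ∈ W, Φ x ∈ W) (x : X)
    (hx : x ∈ W) : opE s Φ x ∈ W :=
  W.sub_mem (hW _ (hW _ hx)) (W.zsmul_mem hx _)

/-- LEAF A6.  `W` is `Φ`-stable, killed by `p`, `Φ² - tΦ + s` is nilpotent on every element, `s = 1`, `t² ≠ 4` mod `p`.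
PROOF: each of the four maps `x ↦ Φ x - x`, `opE s Φ`, `Φ`, `s •` maps `W` to `W` and is injective on `W`:
if `Φ x = x` then `quad x = (1 - t + s) x`, so `(1-t+s)^N x = 0`, and `1 - t + s = 2 - t` is prime to `p` (`(2-t)(2+t) = 4 - t²`);
if `Φ² x = s² x (= x)` then on `y ∈ {x, Φ x}`: `quad y = 2 y - t Φ y`, `(2 + tΦ)(2 - tΦ) y = (4 - t²) y`; so `(4-t²)^N x = 0`
(all operators are polynomials in `Φ`, they commute);  if `Φ x = 0` then `quad x = s x`. -/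
theorem polY_inj (p : ℕ) [Fact p.Prime] (t s : ℤ) (Φ : X →+ X) (W : AddSubgroup X)
    (hp : ∀ x ∈ W, p • x = 0) (hW : ∀ x ∈ W, Φ x ∈ W)
    (hq : ∀ x ∈ W, ∃ N : ℕ, (quad t s Φ ^ N) x = 0)
    (hs : (p : ℤ) ∣ s - 1) (ht : ¬ (p : ℤ) ∣ t ^ 2 - 4) (x : X) (hx : x ∈ W) (h0 : polY s Φ x = 0) :
    x = 0 := by
  have m1 : Φ x - x ∈ W := W.sub_mem (hW _ hx) hx
  have m2 := opE_mem s Φ W hW _ m1
  have m3 := opE_mem s Φ W hW _ m2
  have m4 := hW _ m3
  have e4 := inj_smul p s hs _ (hp _ m4) h0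
  have e3 := inj_frob p t s Φ hs ht _ (hp _ m3) (hq _ m3) e4
  have e2 := inj_opE p t s Φ hs ht _ (hp _ m2) (hq _ m2) e3
  have e1 := inj_opE p t s Φ hs ht _ (hp _ m1) (hq _ m1) e2
  exact inj_frob_sub_one p t s Φ hs ht _ (hp _ hx) (hq _ hx) e1

/-- LEAF A6'. -/
theorem polI_inj (p : ℕ) [Fact p.Prime] (t s : ℤ) (Φ : X →+ X) (W : AddSubgroup X)
    (hp : ∀ x ∈ W, p • x = 0) (hW : ∀ x ∈ W, Φ x ∈ W)
    (hq : ∀ x ∈ W, ∃ N : ℕ, (quad t s Φ ^ N) x = 0)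
    (hs : (p : ℤ) ∣ s - 1) (ht : ¬ (p : ℤ) ∣ t ^ 2 - 4) (x : X) (hx : x ∈ W) (h0 : polI s Φ x = 0) :
    x = 0 := by
  have m2 := opE_mem s Φ W hW _ hx
  have m4 := hW _ m2
  have e4 := inj_smul p s hs _ (hp _ m4) h0
  have e3 := inj_frob p t s Φ hs ht _ (hp _ m2) (hq _ m2) e4
  exact inj_opE p t s Φ hs ht _ (hp _ hx) (hq _ hx) e3

end Fermat.Agent.S43.Tower
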