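import Fermat.Agent.S43.Size.DTD
import Fermat.Agent.DR.Hecke.Galois
import Fermat.Agent.GAL.Assembly
import Fermat.Agent.S43.Tower.Frob
import Fermat.Agent.S43.Tower.Fixed

/-!
# S43 / TOWER / Conc : the iteration over the Taylor-Wiles primes, concrete form

Levels `lev M [] = M`, `lev M (s :: l) = lev M l * s * s`.  `V(n) = KV Kbar (FN n) p`.
`genKV n p S a` = generalised eigenspace of the `T_ℓ` (`ℓ` prime, `ℓ ∉ S`) with eigenvalues `a ℓ`; `S` contains `p` and all the primes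
dividing the top level (so that the SAME index type `Pri S` is used at all the levels of the tower).

INPUTS (closed `Prop`s; they are proved elsewhere, in files with heavier imports):
* `Basic p`      : finiteness of `V(n)`, commutation of the `T_ℓ`, `α^*`, `β^*` commute with `T_ℓ`   (`S41/Dual/Frob.lean`);
* `CtrlIn p`     : Theorem Y, operator form (`Ctrl.CtrlStatement` / `Ctrl.NeatStatement`);
* `SizeIn ...`   : Theorem G, one prime;
* `QuadAt`, `UnipAt` : Cayley-Hamilton on the generalised eigenspace for a Frobenius, resp. an inertia element at `s` (block CH).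

OUTPUTS: `control` (T1), `size` (T2), `nolow` (T3).
-/

set_option autoImplicit false
set_option linter.unusedSectionVars false
set_option linter.style.haveILetI false

noncomputable section

namespace Fermat.Agent.S43.Tower

open AlgebraicCurve ModularCurve Fermat.Agent.S24 Fermat.Agent.GAL Fermat.Agent.GAL.Hecke
  Fermat.Agent.DR Fermat.Agent.DR.Hecke Fermat.Agent.S43.Size
open Fermat.Agent.S43.Ctrl (opE)

/-! ### definitions -/

/-- the primes outside `S`. -/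
def Pri (S : Finset ℕ) : Type := {ℓ : ℕ // ℓ.Prime ∧ ℓ ∉ S}

/-- the Hecke operators, indexed by `Pri S`. -/
def TT (n p : ℕ) [NeZero n] (S : Finset ℕ) (ℓ : Pri S) : AddMonoid.End (KV Kbar (FN n) p) :=
  heckeTtot n p ℓ.1

/-- the generalised `θ`-eigenspace. -/
def genKV (n p : ℕ) [NeZero n] (S : Finset ℕ) (a : ℕ → ℤ) : AddSubgroup (KV Kbar (FN n) p) :=
  gen (TT n p S) (fun ℓ => a ℓ.1)

/-- a Galois element as an additive endomorphism (`= Ctrl.frob p n g`). -/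
def fr (n p : ℕ) (g : GQ) : KV Kbar (FN n) p →+ KV Kbar (FN n) p := DistribSMul.toAddMonoidHom _ g

theorem fr_apply (n p : ℕ) (g : GQ) (x : KV Kbar (FN n) p) : fr n p g x = g • x := rfl

/-- the levels of the tower. -/
def lev (M : ℕ) : List Nat.Primes → ℕ
  | [] => M
  | (s :: l) => lev M l * (s : ℕ) * (s : ℕ)

instance neZero_primes (s : Nat.Primes) : NeZero (s : ℕ) := ⟨s.2.ne_zero⟩

instance neZero_lev (M : ℕ) [NeZero M] : ∀ l : List Nat.Primes, NeZero (lev M l)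
  | [] => ‹NeZero M›
  | (s :: l) => ⟨mul_ne_zero (mul_ne_zero (neZero_lev M l).out s.2.ne_zero) s.2.ne_zero⟩

theorem lev_cons (M : ℕ) (s : Nat.Primes) (l : List Nat.Primes) :
    lev M (s :: l) = lev M l * (s : ℕ) * (s : ℕ) := rfl

theorem dvd_lev (M : ℕ) (l : List Nat.Primes) : M ∣ lev M l := by
  induction l with
  | nil => exact dvd_rfl
  | cons s l ih => exact (ih.mul_right _).mul_right _

theorem lev_mul (M q : ℕ) (l : List Nat.Primes) : lev (M * q) l = lev M l * q := by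
  induction l with
  | nil => rfl
  | cons s l ih => rw [lev_cons, lev_cons, ih]; ring

/-- a prime dividing `lev M l` divides `M` or is in `l`. -/
theorem prime_dvd_lev {M : ℕ} {l : List Nat.Primes} {r : ℕ} (hr : r.Prime) (h : r ∣ lev M l) :
    r ∣ M ∨ ∃ s ∈ l, (s : ℕ) = r := by
  induction l with
  | nil => exact Or.inl h
  | cons s l ih =>
    rw [lev_cons] at h
    rcases hr.dvd_mul.1 h with h | h
    · rcases hr.dvd_mul.1 h with h | h
      · rcases ih h with h | ⟨t, ht, rfl⟩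
        · exact Or.inl h
        · exact Or.inr ⟨t, List.mem_cons_of_mem _ ht, rfl⟩
      · exact Or.inr ⟨s, List.mem_cons_self, ((Nat.prime_dvd_prime_iff_eq hr s.2).1 h).symm⟩
    · exact Or.inr ⟨s, List.mem_cons_self, ((Nat.prime_dvd_prime_iff_eq hr s.2).1 h).symm⟩

/-- the union of the inertia groups at the places `pl i`, `i ∈ l`. -/
def Jset {ι : Type*} (pl : ι → ValuationSubring Kbar) (l : List ι) : Set GQ :=
  {g | ∃ i ∈ l, g ∈ (pl i).inertiaSubgroupIn ℚ}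

theorem Jset_cons {ι : Type*} (pl : ι → ValuationSubring Kbar) (s : ι) (l : List ι) :
    Jset pl (s :: l) = ((pl s).inertiaSubgroupIn ℚ : Set GQ) ∪ Jset pl l := by
  ext g
  constructor
  · rintro ⟨t, ht, hg⟩
    rcases List.mem_cons.1 ht with rfl | ht
    · exact Or.inl hg
    · exact Or.inr ⟨t, ht, hg⟩
  · rintro (hg | ⟨t, ht, hg⟩)
    · exact ⟨s, List.mem_cons_self, hg⟩
    · exact ⟨t, List.mem_cons_of_mem _ ht, hg⟩

/-! ### the inputs -/

/-- basic facts on `V(n)` (all in `S41/Dual/Frob.lean`). -/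
structure Basic (p : ℕ) : Prop where
  fin : ∀ (n : ℕ) [NeZero n], Finite (KV Kbar (FN n) p)
  comm : ∀ (n : ℕ) [NeZero n] {ℓ ℓ' : ℕ}, ℓ.Prime → ℓ'.Prime → ¬ ℓ ∣ n → ¬ ℓ' ∣ n →
    ∀ x : KV Kbar (FN n) p, heckeTtot n p ℓ (heckeTtot n p ℓ' x) = heckeTtot n p ℓ' (heckeTtot n p ℓ x)
  aT : ∀ (M q : ℕ) [NeZero M] [NeZero q] {ℓ : ℕ}, ℓ.Prime → ¬ ℓ ∣ M * q * p → ∀ x : KV Kbar (FN M) p,
    aPull M q p (heckeTtot M p ℓ x) = heckeTtot (M * q) p ℓ (aPull M q p x)
  bT : ∀ (M q : ℕ) [NeZero M] [NeZero q] {ℓ : ℕ}, ℓ.Prime → ¬ ℓ ∣ M * q * p → ∀ x : KV Kbar (FN M) p,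
    bPull M q p (heckeTtot M p ℓ x) = heckeTtot (M * q) p ℓ (bPull M q p x)

/-- **Theorem Y**, operator form, neat levels (`e = 1` from `Ctrl.NeatStatement`, `e = 12` from `Ctrl.CtrlStatement`). -/
def CtrlIn (p : ℕ) : Prop :=
  ∀ (L s : ℕ) [NeZero L] [NeZero s], s.Prime → ¬ s ∣ L → 4 ∣ L → 5 ≤ s → s ≠ p →
    ∀ (A : ValuationSubring Kbar), A.LiesOverPrime s → ∀ φ : GQ, A.IsFrobeniusAt φ s →
      ∃ e : ℤ, ¬ (p : ℤ) ∣ e ∧
        (∀ x : KV Kbar (FN (L * s * s)) p, (∀ σ ∈ A.inertiaSubgroupIn ℚ, σ • x = x) →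
          ∃ z0 z1 z2 : KV Kbar (FN L) p,
            e • polY (s : ℤ) (fr (L * s * s) p φ) x = pull1 L s p z0 + pullS L s p z1 + pullS2 L s p z2) ∧
        (∀ z0 z1 z2 : KV Kbar (FN L) p, pull1 L s p z0 + pullS L s p z1 + pullS2 L s p z2 = 0 →
          e • polI (s : ℤ) (fr L p φ) z0 = 0 ∧ e • polI (s : ℤ) (fr L p φ) z1 = 0 ∧
            e • polI (s : ℤ) (fr L p φ) z2 = 0)

/-- Cayley-Hamilton for a Frobenius at `s` on the generalised eigenspaces (all levels). -/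
def QuadAt (p : ℕ) (S : Finset ℕ) (a : ℕ → ℤ) (s : ℕ) (φ : GQ) : Prop :=
  ∀ (n : ℕ) [NeZero n], (∀ r : ℕ, r.Prime → r ∣ n → r ∈ S) → ∀ x ∈ genKV n p S a,
    ∃ N : ℕ, (quad (a s) (s : ℤ) (fr n p φ) ^ N) x = 0

/-- the inertia group `I` acts unipotently on the generalised eigenspaces (all levels). -/
def UnipOn (p : ℕ) (S : Finset ℕ) (a : ℕ → ℤ) (I : Subgroup GQ) : Prop :=
  ∀ (n : ℕ) [NeZero n], (∀ r : ℕ, r.Prime → r ∣ n → r ∈ S) → ∀ τ ∈ I, ∀ x ∈ genKV n p S a,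
    ∃ N : ℕ, ((DistribMulAction.toAddMonoidEnd GQ (KV Kbar (FN n) p) τ - 1) ^ N) x = 0

/-- **Theorem G**, one prime: `δ j z` is a norm. -/
def SizeAt (p : ℕ) (S : Finset ℕ) (a : ℕ → ℤ) (s : ℕ) [NeZero s] (σ : GQ) (P : ℕ) : Prop :=
  ∀ (L : ℕ) [NeZero L], ¬ s ∣ L → 4 ∣ L → (∀ r : ℕ, r.Prime → r ∣ L * s * s → r ∈ S) →
    ∀ z ∈ genKV L p S a, ∃ w ∈ genKV (L * s * s) p S a, nrm σ P w = zOf L s p z

end Fermat.Agent.S43.Tower
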