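import Fermat.Agent.S43.Tower.Iter
import Fermat.Agent.S43.Ctrl.Defs
import Fermat.Agent.S41.Dual.Frob

/-!
# S43 / TOWER / Inputs : the inputs `Basic p`, `CtrlIn p` of `Tower/Conc.lean`   (helper87)

* `basic`     : `Basic p` (`p ≠ 0`), from `S41/Dual/Frob.lean`;
* `ctrlIn_of` : `Ctrl.CtrlStatement → CtrlIn p` (with `e = 1`).
-/

set_option autoImplicit false
set_option linter.unusedSectionVars false

noncomputable section

namespace Fermat.Agent.S43.Tower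

open AlgebraicCurve ModularCurve Fermat.Agent.S24 Fermat.Agent.GAL Fermat.Agent.GAL.Hecke
  Fermat.Agent.DR Fermat.Agent.DR.Hecke Fermat.Agent.S43.Size
open Fermat.Agent.S43.Ctrl (opE)

theorem basic {p : ℕ} (hp : p ≠ 0) : Basic p where
  fin := fun n _ => S41.Dual.finite_KV n p hp
  comm := fun n _ _ _ hℓ hℓ' h h' x => S41.Dual.heckeTtot_comm n p hp hℓ hℓ' h h' x
  aT := fun M q _ _ _ hℓ h x => S41.Dual.aPull_heckeTtot M q p hp hℓ h x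
  bT := fun M q _ _ _ hℓ h x => S41.Dual.bPull_heckeTtot M q p hp hℓ h x

/-- `CtrlStatement` at the exponent `p` (instead of `p ^ 1`). -/
theorem ctrl_exp_one (hC : Ctrl.CtrlStatement) (L s : ℕ) [NeZero L] [NeZero s] (hs : s.Prime)
    (hsL : ¬ s ∣ L) (hneat : 4 ∣ L ∨ 9 ∣ L) (A : ValuationSubring Kbar) (hA : A.LiesOverPrime s)
    (p : ℕ) (hp : p.Prime) (hps : p ≠ s) (φ : GQ) (hφ : A.IsFrobeniusAt φ s) :
    (∀ x ∈ Ctrl.VI A (L * s * s) p, ∃ z0 z1 z2 : KV Kbar (FN L) p,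
      (s : ℤ) • Ctrl.frob p (L * s * s) φ (opE (s : ℤ) (Ctrl.frob p (L * s * s) φ)
        (opE (s : ℤ) (Ctrl.frob p (L * s * s) φ) (Ctrl.frob p (L * s * s) φ x - x))) =
      Ctrl.d1 L s p z0 + Ctrl.ds L s p z1 + Ctrl.dss L s p z2) ∧
    (∀ z0 z1 z2 : KV Kbar (FN L) p,
      Ctrl.d1 L s p z0 + Ctrl.ds L s p z1 + Ctrl.dss L s p z2 = 0 →
      (s : ℤ) • Ctrl.frob p L φ (opE (s : ℤ) (Ctrl.frob p L φ) z0) = 0 ∧
      (s : ℤ) • Ctrl.frob p L φ (opE (s : ℤ) (Ctrl.frob p L φ) z1) = 0 ∧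
      (s : ℤ) • Ctrl.frob p L φ (opE (s : ℤ) (Ctrl.frob p L φ) z2) = 0) := by
  have h := hC L s hs hsL hneat A hA p 1 hp hps φ hφ
  have key : ∀ m : ℕ, m = p →
      ((∀ x ∈ Ctrl.VI A (L * s * s) m, ∃ z0 z1 z2 : KV Kbar (FN L) m,
        (s : ℤ) • Ctrl.frob m (L * s * s) φ (opE (s : ℤ) (Ctrl.frob m (L * s * s) φ)
          (opE (s : ℤ) (Ctrl.frob m (L * s * s) φ) (Ctrl.frob m (L * s * s) φ x - x))) =
        Ctrl.d1 L s m z0 + Ctrl.ds L s m z1 + Ctrl.dss L s m z2) ∧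
      (∀ z0 z1 z2 : KV Kbar (FN L) m,
        Ctrl.d1 L s m z0 + Ctrl.ds L s m z1 + Ctrl.dss L s m z2 = 0 →
        (s : ℤ) • Ctrl.frob m L φ (opE (s : ℤ) (Ctrl.frob m L φ) z0) = 0 ∧
        (s : ℤ) • Ctrl.frob m L φ (opE (s : ℤ) (Ctrl.frob m L φ) z1) = 0 ∧
        (s : ℤ) • Ctrl.frob m L φ (opE (s : ℤ) (Ctrl.frob m L φ) z2) = 0)) →
      ((∀ x ∈ Ctrl.VI A (L * s * s) p, ∃ z0 z1 z2 : KV Kbar (FN L) p,
        (s : ℤ) • Ctrl.frob p (L * s * s) φ (opE (s : ℤ) (Ctrl.frob p (L * s * s) φ)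
          (opE (s : ℤ) (Ctrl.frob p (L * s * s) φ) (Ctrl.frob p (L * s * s) φ x - x))) =
        Ctrl.d1 L s p z0 + Ctrl.ds L s p z1 + Ctrl.dss L s p z2) ∧
      (∀ z0 z1 z2 : KV Kbar (FN L) p,
        Ctrl.d1 L s p z0 + Ctrl.ds L s p z1 + Ctrl.dss L s p z2 = 0 →
        (s : ℤ) • Ctrl.frob p L φ (opE (s : ℤ) (Ctrl.frob p L φ) z0) = 0 ∧
        (s : ℤ) • Ctrl.frob p L φ (opE (s : ℤ) (Ctrl.frob p L φ) z1) = 0 ∧
        (s : ℤ) • Ctrl.frob p L φ (opE (s : ℤ) (Ctrl.frob p L φ) z2) = 0)) := by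
    intro m hm
    subst hm
    exact id
  exact key (p ^ 1) (pow_one p) h

/-- **the input `CtrlIn p`** from Theorem Y. -/
theorem ctrlIn_of (hC : Ctrl.CtrlStatement) {p : ℕ} (hp : p.Prime) : CtrlIn p := by
  intro L s _ _ hs hsL h4 _ hsp A hA φ hφ
  obtain ⟨h1, h2⟩ := ctrl_exp_one hC L s hs hsL (Or.inl h4) A hA p hp hsp.symm φ hφ
  refine ⟨1, ?_, ?_, ?_⟩
  · intro h
    exact hp.one_lt.ne' (Nat.dvd_one.1 (Int.natCast_dvd_natCast.1 (by simpa using h)))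
  · intro x hx
    obtain ⟨z0, z1, z2, hz⟩ := h1 x hx
    exact ⟨z0, z1, z2, by rw [one_smul]; exact hz⟩
  · intro z0 z1 z2 hz
    obtain ⟨e0, e1, e2⟩ := h2 z0 z1 z2 hz
    exact ⟨by rw [one_smul]; exact e0, by rw [one_smul]; exact e1, by rw [one_smul]; exact e2⟩

end Fermat.Agent.S43.Tower
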