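import Fermat.Agent.S43.Ctrl.Abs
import Fermat.Agent.S43.Tower.Abs

/-!
# S43 / TOWER, file `Defs`: definitions and small lemmas for the CONCRETE iteration over the Taylor-Wiles primes

(The abstract algebra `gen`, `exists_eigen`, `step_theta`, `step_inj`, `card_step`, `card_triple` is helper62's `Tower/Abs.lean`.)
Here: `polY`, `polI`, `quad` (Frobenius polynomials of Theorem Y), `nrm`, `nprod` (norms), `step_size`.
-/

set_option autoImplicit false

namespace Fermat.Agent.S43.Tower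

open Fermat.Agent.S43.Ctrl (opE)

section gpart

variable {ι X Y : Type*} [AddCommGroup X] [AddCommGroup Y]

theorem end_mul_apply (f g : AddMonoid.End X) (x : X) : (f * g) x = f (g x) := rfl

theorem end_sub_apply (f g : AddMonoid.End X) (x : X) : (f - g) x = f x - g x := rfl

theorem end_add_apply (f g : AddMonoid.End X) (x : X) : (f + g) x = f x + g x := rfl

theorem end_intCast_apply (z : ℤ) (x : X) : (z : AddMonoid.End X) x = z • x := rfl

theorem end_one_apply (x : X) : (1 : AddMonoid.End X) x = x := rfl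

end gpart

section fixed

variable {G X : Type*} [Group G] [AddCommGroup X] [DistribMulAction G X]

end fixed

section frob

variable {X : Type*} [AddCommGroup X]

/-- the polynomial `s Φ (Φ² - s²)² (Φ - 1)` of `Ctrl.AbsY.main`. -/
def polY (s : ℤ) (Φ : X →+ X) (x : X) : X := s • Φ (opE s Φ (opE s Φ (Φ x - x)))

/-- the polynomial `s Φ (Φ² - s²)` of `Ctrl.AbsY.inj`. -/
def polI (s : ℤ) (Φ : X →+ X) (x : X) : X := s • Φ (opE s Φ x)

/-- the quadratic operator `Φ² - t Φ + s`. -/
def quad (t s : ℤ) (Φ : AddMonoid.End X) : AddMonoid.End X :=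
  Φ * Φ - (t : AddMonoid.End X) * Φ + (s : AddMonoid.End X)

theorem quad_apply (t s : ℤ) (Φ : AddMonoid.End X) (x : X) :
    quad t s Φ x = Φ (Φ x) - t • Φ x + s • x := rfl

end frob

section equivariant

variable {G ι X X' : Type*} [Group G] [AddCommGroup X] [AddCommGroup X'] [DistribMulAction G X]
  [DistribMulAction G X']

/-- the invariants of a set of group elements. -/
def inv (J : Set G) (X : Type*) [AddCommGroup X] [DistribMulAction G X] : AddSubgroup X where
  carrier := {x | ∀ τ ∈ J, τ • x = x}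
  zero_mem' := fun τ _ => smul_zero τ
  add_mem' := fun hx hy τ hτ => by rw [smul_add, hx τ hτ, hy τ hτ]
  neg_mem' := fun hx τ hτ => by rw [smul_neg, hx τ hτ]

theorem mem_inv {J : Set G} {x : X} : x ∈ inv J X ↔ ∀ τ ∈ J, τ • x = x := Iff.rfl

/-- the norm `∑_{i<P} σ^i`. -/
def nrm (σ : G) (P : ℕ) (x : X) : X := ∑ i ∈ Finset.range P, σ ^ i • x

/-- the product of the norms: `nprod ((σ,P) :: l) x = nprod l (nrm σ P x)`. -/
def nprod : List (G × ℕ) → X → X
  | [], x => x
  | (σP :: l), x => nprod l (nrm σP.1 σP.2 x)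

theorem map_nrm (f : X' →+ X) (hf : ∀ (g : G) z, f (g • z) = g • f z) (σ : G) (P : ℕ) (z : X') :
    f (nrm σ P z) = nrm σ P (f z) := by
  simp only [nrm, map_sum, hf]

theorem map_nprod (f : X' →+ X) (hf : ∀ (g : G) z, f (g • z) = g • f z) (l : List (G × ℕ)) (z : X') :
    f (nprod l z) = nprod l (f z) := by
  induction l generalizing z with
  | nil => rfl
  | cons σP l ih => simp only [nprod]; rw [ih, map_nrm f hf]

theorem nrm_mem (W : AddSubgroup X) (hW : ∀ (g : G), ∀ z ∈ W, g • z ∈ W) (σ : G) (P : ℕ) {x : X}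
    (hx : x ∈ W) : nrm σ P x ∈ W :=
  AddSubgroup.sum_mem _ fun _ _ => hW _ _ hx

theorem nprod_mem (W : AddSubgroup X) (hW : ∀ (g : G), ∀ z ∈ W, g • z ∈ W) (l : List (G × ℕ)) {x : X}
    (hx : x ∈ W) : nprod l x ∈ W := by
  induction l generalizing x with
  | nil => exact hx
  | cons σP l ih => exact ih (nrm_mem W hW _ _ hx)

/-- **one step of SIZE**. -/
theorem step_size (W : AddSubgroup X) (W' : AddSubgroup X') (hW' : ∀ (g : G), ∀ z ∈ W', g • z ∈ W')
    (dj : X' →+ X) (hdjG : ∀ (g : G) z, dj (g • z) = g • dj z)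
    (hdj : ∀ z ∈ W', dj z = 0 → z = 0) (σ : G) (P : ℕ)
    (hG : ∀ z ∈ W', ∃ w ∈ W, nrm σ P w = dj z) (l : List (G × ℕ))
    (h : ∃ z ∈ W', nprod l z ≠ 0) : ∃ w ∈ W, nprod ((σ, P) :: l) w ≠ 0 := by
  obtain ⟨z, hz, hne⟩ := h
  obtain ⟨w, hw, hwz⟩ := hG z hz
  refine ⟨w, hw, fun h0 => hne ?_⟩
  have h1 : nprod l (dj z) = 0 := by rw [← hwz]; exact h0
  rw [← map_nprod dj hdjG] at h1
  exact hdj _ (nprod_mem W' hW' l hz) h1

end equivariant

end Fermat.Agent.S43.Tower
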