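import Fermat.Agent.S43.Tower.NoLowAbs
import Fermat.Agent.S43.Geo.Contract
import Fermat.Agent.S43.Top0.GenBridge
import Fermat.Agent.MR.Glue.Frob
import Fermat.Agent.S41.Dual.Frob

/-!
# S43 / TOWER / NoLow : the export (iii) NOLOW of `Geo/Contract.lean`

* `ctrl_p`      : `Ctrl.CtrlStatement` at the exponent `p` (instead of `p ^ 1`);
* `nolow_step`  : `eigenKV (L s²) p S a ≠ ⊥ → eigenKV L p (insert s (insert p S)) a ≠ ⊥`;
* `nolow_list`  : the iteration over a list of Taylor-Wiles points;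
* `noLowC : Ctrl.CtrlStatement → Geo.NoLowC`;
* `eigenKV_lev_eq_bot` : the form consumed by `GA` (`hH`).
-/

set_option autoImplicit false
set_option linter.unusedSectionVars false
set_option linter.style.haveILetI false

noncomputable section

namespace Fermat.Agent.S43.Tower.NoLow

open AlgebraicCurve ModularCurve Fermat.Agent.S24 Fermat.Agent.GAL Fermat.Agent.GAL.Hecke
  Fermat.Agent.DR Fermat.Agent.MR.Glue Fermat.Agent.MR.E Fermat.Agent.S41.Dual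
open Fermat.Agent.S43.Ctrl (opE d1 ds dss frob VI CtrlStatement)
open Fermat.Agent.S43.Geo
open WeierstrassCurve WeierstrassCurve.Affine WeierstrassCurve.Affine.Point

/-- `Ctrl.CtrlStatement` at an exponent `n = p ^ e`. -/
theorem ctrl_n (hC : CtrlStatement) (L s : ℕ) [NeZero L] [NeZero s] (hs : s.Prime) (hsL : ¬ s ∣ L)
    (hneat : 4 ∣ L ∨ 9 ∣ L) (A : ValuationSubring Kbar) (hA : A.LiesOverPrime s) (p e n : ℕ)
    (hn : n = p ^ e) (hp : p.Prime) (hps : p ≠ s) (φ : GQ) (hφ : A.IsFrobeniusAt φ s) :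
    (∀ x ∈ VI A (L * s * s) n, ∃ z0 z1 z2 : KV Kbar (FN L) n,
      polY (s : ℤ) (frob n (L * s * s) φ) x = d1 L s n z0 + ds L s n z1 + dss L s n z2) ∧
    (∀ z0 z1 z2 : KV Kbar (FN L) n, d1 L s n z0 + ds L s n z1 + dss L s n z2 = 0 →
      polI (s : ℤ) (frob n L φ) z0 = 0 ∧ polI (s : ℤ) (frob n L φ) z1 = 0 ∧
        polI (s : ℤ) (frob n L φ) z2 = 0) := by
  subst hn
  exact hC L s hs hsL hneat A hA p e hp hps φ hφ

section comm

variable (L s n : ℕ) [NeZero L] [NeZero s]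

theorem frob_d1 (φ : GQ) (z : KV Kbar (FN L) n) :
    frob n (L * s * s) φ (d1 L s n z) = d1 L s n (frob n L φ z) := by
  show φ • (DR.Hecke.aPull (L * s) s n (DR.Hecke.aPull L s n z)) =
    DR.Hecke.aPull (L * s) s n (DR.Hecke.aPull L s n (φ • z))
  rw [DR.Hecke.aPull_smul, DR.Hecke.aPull_smul]

theorem frob_ds (φ : GQ) (z : KV Kbar (FN L) n) :
    frob n (L * s * s) φ (ds L s n z) = ds L s n (frob n L φ z) := by
  show φ • (DR.Hecke.aPull (L * s) s n (DR.Hecke.bPull L s n z)) =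
    DR.Hecke.aPull (L * s) s n (DR.Hecke.bPull L s n (φ • z))
  rw [DR.Hecke.bPull_smul, DR.Hecke.aPull_smul]

theorem frob_dss (φ : GQ) (z : KV Kbar (FN L) n) :
    frob n (L * s * s) φ (dss L s n z) = dss L s n (frob n L φ z) := by
  show φ • (DR.Hecke.bPull (L * s) s n (DR.Hecke.bPull L s n z)) =
    DR.Hecke.bPull (L * s) s n (DR.Hecke.bPull L s n (φ • z))
  rw [DR.Hecke.bPull_smul, DR.Hecke.bPull_smul]

variable {L s n}

theorem not_dvd_lss {ℓ : ℕ} (hℓ : ℓ.Prime) (h : ¬ ℓ ∣ L * s * n) : ¬ ℓ ∣ L * s * s * n := by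
  intro h'
  rcases (hℓ.dvd_mul.1 h') with h' | h'
  · rcases (hℓ.dvd_mul.1 h') with h' | h'
    · exact h (h'.mul_right n)
    · exact h ((h'.mul_left L).mul_right n)
  · exact h (h'.mul_left _)

theorem hecke_d1 (hn : n ≠ 0) {ℓ : ℕ} (hℓ : ℓ.Prime) (h : ¬ ℓ ∣ L * s * n) (z : KV Kbar (FN L) n) :
    heckeTtot (L * s * s) n ℓ (d1 L s n z) = d1 L s n (heckeTtot L n ℓ z) := by
  show heckeTtot (L * s * s) n ℓ (DR.Hecke.aPull (L * s) s n (DR.Hecke.aPull L s n z)) =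
    DR.Hecke.aPull (L * s) s n (DR.Hecke.aPull L s n (heckeTtot L n ℓ z))
  rw [aPull_heckeTtot L s n hn hℓ h, aPull_heckeTtot (L * s) s n hn hℓ (not_dvd_lss hℓ h)]

theorem hecke_ds (hn : n ≠ 0) {ℓ : ℕ} (hℓ : ℓ.Prime) (h : ¬ ℓ ∣ L * s * n) (z : KV Kbar (FN L) n) :
    heckeTtot (L * s * s) n ℓ (ds L s n z) = ds L s n (heckeTtot L n ℓ z) := by
  show heckeTtot (L * s * s) n ℓ (DR.Hecke.aPull (L * s) s n (DR.Hecke.bPull L s n z)) =
    DR.Hecke.aPull (L * s) s n (DR.Hecke.bPull L s n (heckeTtot L n ℓ z))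
  rw [bPull_heckeTtot L s n hn hℓ h, aPull_heckeTtot (L * s) s n hn hℓ (not_dvd_lss hℓ h)]

theorem hecke_dss (hn : n ≠ 0) {ℓ : ℕ} (hℓ : ℓ.Prime) (h : ¬ ℓ ∣ L * s * n) (z : KV Kbar (FN L) n) :
    heckeTtot (L * s * s) n ℓ (dss L s n z) = dss L s n (heckeTtot L n ℓ z) := by
  show heckeTtot (L * s * s) n ℓ (DR.Hecke.bPull (L * s) s n (DR.Hecke.bPull L s n z)) =
    DR.Hecke.bPull (L * s) s n (DR.Hecke.bPull L s n (heckeTtot L n ℓ z))
  rw [bPull_heckeTtot L s n hn hℓ h, bPull_heckeTtot (L * s) s n hn hℓ (not_dvd_lss hℓ h)]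

theorem hecke_frob (N : ℕ) [NeZero N] (ℓ : ℕ) (φ : GQ) (z : KV Kbar (FN N) n) :
    heckeTtot N n ℓ (frob n N φ z) = frob n N φ (heckeTtot N n ℓ z) := by
  show heckeTtot N n ℓ (φ • z) = φ • heckeTtot N n ℓ z
  by_cases h : ℓ = 0
  · rw [heckeTtot, dif_pos h]
    simp
  · haveI : NeZero ℓ := ⟨h⟩
    rw [heckeTtot_eq, heckeT_galois_smul]

end comm

/-- **(NOLOW), one step.** -/
theorem nolow_step (hC : CtrlStatement) (P : FreyPackage)
    (hirr : GaloisRepIsIrreducible (K := AlgebraicClosure ℚ) ℚ P.freyCurve P.p)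
    (W : WeierstrassCurve ℤ) (hW : W.IsIntegralModelOf P.freyCurve)
    (L s : ℕ) [NeZero L] [NeZero s] (hs : s.Prime) (hsL : ¬ s ∣ L) (hneat : 4 ∣ L ∨ 9 ∣ L)
    (hsp : s ≠ P.p) (A : ValuationSubring Kbar) (hA : A.LiesOverPrime s)
    (hunr : ∀ τ ∈ A.inertiaSubgroupIn ℚ, ∀ y : Ep P, τ • y = y)
    (hfr : ∀ φ : GQ, A.IsFrobeniusAt φ s → ∀ y : Ep P,
      φ • φ • y - W.apOfModel s • φ • y + (s : ℤ) • y = 0)
    (hs1 : (P.p : ℤ) ∣ (s : ℤ) - 1) (ht : ¬ (P.p : ℤ) ∣ W.apOfModel s ^ 2 - 4)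
    (S : Finset ℕ) (hocc : eigenKV (L * s * s) P.p S W.apOfModel ≠ ⊥) :
    eigenKV L P.p (insert s (insert P.p S)) W.apOfModel ≠ ⊥ := by
  haveI : Fact P.p.Prime := ⟨P.pp⟩
  haveI : NeZero P.p := ⟨P.pp.ne_zero⟩
  obtain ⟨f, hinj, hgal, hfU⟩ := blrCopy P hirr (L * s * s) W hW S
    (eigenKV (L * s * s) P.p S W.apOfModel) hocc le_rfl (fun σ x hx => eigenKV_galois _ _ σ x hx)
  obtain ⟨φ, hφ⟩ := Fermat.Agent.Lib.Frobenius.exists_isFrobeniusAt A hs hA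
  obtain ⟨hmain, hker⟩ := ctrl_n hC L s hs hsL hneat A hA P.p 1 P.p (pow_one _).symm P.pp hsp.symm φ hφ
  -- a non zero point of `E[p]`
  obtain ⟨x, hx⟩ : ∃ x : Ep P, x ≠ 0 := by
    by_contra hcon
    push Not at hcon
    have h1 : Nat.card (Ep P) = 1 := by
      haveI : Subsingleton (Ep P) := ⟨fun a b => by rw [hcon a, hcon b]⟩
      exact Nat.card_unique
    rw [card_Ep] at h1
    have := P.pp.one_lt
    nlinarith [Nat.one_lt_pow (n := 2) (by norm_num) this]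
  let ι : Type := {ℓ : ℕ // ℓ.Prime ∧ ¬ ℓ ∣ L * s * P.p ∧ ℓ ∉ S}
  obtain ⟨z, hz0, hz⟩ := nolow_abs (E := Ep P) P.p (W.apOfModel s) (s : ℤ)
    (DistribSMul.toAddMonoidHom (Ep P) φ) (frob P.p (L * s * s) φ) (frob P.p L φ) f hinj
    (fun y => hgal φ y) (fun y => Subtype.ext (Ep_nsmul P y)) (fun y => hfr φ hφ y) hs1 ht
    (d1 L s P.p) (ds L s P.p) (dss L s P.p) (frob_d1 L s P.p φ) (frob_ds L s P.p φ)
    (frob_dss L s P.p φ)
    (fun y => hmain (f y) (fun τ hτ => by rw [← hgal, hunr τ hτ]))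
    hker (ι := ι)
    (fun i => heckeTtot (L * s * s) P.p i.1) (fun i => heckeTtot L P.p i.1)
    (fun i => W.apOfModel i.1)
    (fun i z => hecke_d1 P.pp.ne_zero i.2.1 i.2.2.1 z)
    (fun i z => hecke_ds P.pp.ne_zero i.2.1 i.2.2.1 z)
    (fun i z => hecke_dss P.pp.ne_zero i.2.1 i.2.2.1 z)
    (fun i z => hecke_frob L i.1 φ z)
    (fun i y => by
      haveI : NeZero i.1 := ⟨i.2.1.ne_zero⟩
      rw [heckeTtot_eq]
      refine hfU y i.1 i.2.1 (fun h => ?_) i.2.2.2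
      rcases (i.2.1.dvd_mul.1 h) with h | h
      · exact i.2.2.1 (h.mul_right _)
      · exact i.2.2.1 ((h.mul_left L).mul_right _))
    x hx
  intro hbot
  have hmem : z ∈ eigenKV L P.p (insert s (insert P.p S)) W.apOfModel := by
    intro ℓ _ h1 h2 h3
    rw [Finset.mem_insert, Finset.mem_insert, not_or, not_or] at h3
    have h4 : ¬ ℓ ∣ L * s * P.p := by
      intro h
      rcases (h1.dvd_mul.1 h) with h | h
      · rcases (h1.dvd_mul.1 h) with h | h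
        · exact h2 h
        · exact h3.1 ((Nat.prime_dvd_prime_iff_eq h1 hs).1 h)
      · exact h3.2.1 ((Nat.prime_dvd_prime_iff_eq h1 P.pp).1 h)
    have := hz ⟨ℓ, h1, h4, h3.2.2⟩
    rwa [heckeTtot_eq] at this
  rw [hbot] at hmem
  exact hz0 ((AddSubgroup.mem_bot).1 hmem)

/-! ### the iteration -/

theorem ok_ne_p {P : FreyPackage} {a : ℕ → ℤ} {t : TWPt} (h : t.Ok P a) : t.s ≠ P.p := by
  intro hsp
  obtain ⟨e, he, hP⟩ := h.ppow
  have h1 : P.p ∣ t.s - 1 := (dvd_pow_self P.p he.ne').trans (hP ▸ h.dvd)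
  rw [hsp] at h1
  have h2 := P.pp.one_lt
  have h3 := Nat.le_of_dvd (by omega) h1
  omega

theorem ok_dvd_sub {P : FreyPackage} {a : ℕ → ℤ} {t : TWPt} (h : t.Ok P a) :
    (P.p : ℤ) ∣ (t.s : ℤ) - 1 := by
  obtain ⟨e, he, hP⟩ := h.ppow
  have h1 : P.p ∣ t.s - 1 := (dvd_pow_self P.p he.ne').trans (hP ▸ h.dvd)
  have h2 : ((t.s - 1 : ℕ) : ℤ) = (t.s : ℤ) - 1 := by
    rw [Nat.cast_sub h.prime.one_lt.le, Nat.cast_one]
  rw [← h2]
  exact Int.natCast_dvd_natCast.2 h1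

theorem hyp_tail {P : FreyPackage} {W0 : WeierstrassCurve ℤ} {S S' : Finset ℕ} {M : ℕ} {t : TWPt}
    {l : List TWPt} (h : Hyp P W0 S M (t :: l)) (hS' : P.p ∈ S') : Hyp P W0 S' M l :=
  ⟨h.model, h.irr, h.four, h.pM, hS', fun t' ht' => h.ok t' (List.mem_cons_of_mem _ ht'),
    fun t' ht' => h.nd t' (List.mem_cons_of_mem _ ht'), (List.pairwise_cons.1 h.pw).2⟩

theorem hyp_not_dvd_lev {P : FreyPackage} {W0 : WeierstrassCurve ℤ} {S : Finset ℕ} {M : ℕ}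
    {t : TWPt} {l : List TWPt} (h : Hyp P W0 S M (t :: l)) : ¬ t.s ∣ lev M l := by
  intro hd
  have hp := (h.ok t List.mem_cons_self).prime
  rcases prime_dvd_lev hp hd with h1 | ⟨t', ht', h1⟩
  · exact h.nd t List.mem_cons_self h1
  · have h2 := (Nat.prime_dvd_prime_iff_eq hp (h.ok t' (List.mem_cons_of_mem _ ht')).prime).1 h1
    exact (List.pairwise_cons.1 h.pw).1 t' ht' h2

/-- **(NOLOW), iterated**, for the eigenspaces. -/
theorem nolow_list (hC : CtrlStatement) (P : FreyPackage) (W0 : WeierstrassCurve ℤ) (M : ℕ)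
    [NeZero M] : ∀ (l : List TWPt) (S : Finset ℕ) [NeZero (lev M l)], Hyp P W0 S M l →
      eigenKV (lev M l) P.p S W0.apOfModel ≠ ⊥ → ∃ S' : Finset ℕ, eigenKV M P.p S' W0.apOfModel ≠ ⊥ := by
  intro l
  induction l with
  | nil => exact fun S _ _ h => ⟨S, h⟩
  | cons t l ih =>
    intro S hne hH hocc
    have hok := hH.ok t List.mem_cons_self
    haveI : NeZero t.s := ⟨hok.prime.ne_zero⟩
    haveI : NeZero (lev M l) := ⟨fun h0 => hne.out (by rw [lev_cons, h0, zero_mul, zero_mul])⟩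
    have h1 := nolow_step hC P hH.irr W0 hH.model (lev M l) t.s hok.prime (hyp_not_dvd_lev hH)
      (Or.inl (hH.four.trans (dvd_lev M l))) (ok_ne_p hok) t.A hok.lies hok.unram hok.frob
      (ok_dvd_sub hok) hok.dist S hocc
    exact ih _ (hyp_tail hH (Finset.mem_insert_of_mem (Finset.mem_insert_self _ _))) h1

/-- a non zero generalised eigenspace contains an eigenvector. -/
theorem eigenKV_ne_bot_of_genKV {N p : ℕ} [NeZero N] (hp : p ≠ 0) (S : Finset ℕ) (a : ℕ → ℤ)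
    (h : genKV N p S a ≠ ⊥) :
    eigenKV N p (N * ∏ ℓ ∈ S.filter Nat.Prime, ℓ).primeFactors a ≠ ⊥ := by
  set D : ℕ := N * ∏ ℓ ∈ S.filter Nat.Prime, ℓ with hD
  have hD0 : D ≠ 0 := mul_ne_zero (NeZero.ne N) (Finset.prod_ne_zero_iff.2 fun ℓ hℓ =>
    (Finset.mem_filter.1 hℓ).2.ne_zero)
  have hND : N ∣ D := Dvd.intro _ rfl
  intro h0
  have h1 := (GenBridge.th_eq_bot_iff (a := a) hp hD0 hND).2 h0
  apply h
  rw [eq_bot_iff]
  intro x hx
  have h2 : x ∈ Size.th N p D a := GenBridge.gEigenKV_subset_th S (fun ℓ hℓ hℓD =>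
    ⟨fun h' => hℓD (h'.trans hND), fun h' => hℓD (Dvd.dvd.mul_left
      (Finset.dvd_prod_of_mem _ (Finset.mem_filter.2 ⟨h', hℓ⟩)) N)⟩) hx
  rw [h1] at h2
  exact h2

/-- **the export (iii) of `Geo/Contract.lean`.** -/
theorem noLowC (hC : CtrlStatement) : NoLowC := by
  intro P W0 S M l _ _ hH hne
  have h1 := eigenKV_ne_bot_of_genKV P.pp.ne_zero S W0.apOfModel hne
  refine nolow_list hC P W0 M l _ ⟨hH.model, hH.irr, hH.four, hH.pM, ?_, hH.ok, hH.nd, hH.pw⟩ h1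
  refine Nat.mem_primeFactors.2 ⟨P.pp, Dvd.dvd.mul_left
    (Finset.dvd_prod_of_mem _ (Finset.mem_filter.2 ⟨hH.pS, P.pp⟩)) _, ?_⟩
  exact mul_ne_zero (NeZero.ne _) (Finset.prod_ne_zero_iff.2 fun ℓ hℓ =>
    (Finset.mem_filter.1 hℓ).2.ne_zero)

/-- the form consumed by GA (`hH`): if the eigensystem does not occur at the level `M`, it does not occur at `lev M l`. -/
theorem eigenKV_lev_eq_bot (hC : CtrlStatement) (P : FreyPackage) (W0 : WeierstrassCurve ℤ)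
    (S₀ : Finset ℕ) (M : ℕ) (l : List TWPt) [NeZero M] [NeZero (lev M l)] (hH : Hyp P W0 S₀ M l)
    (hno : ¬ Occ P M) (S : Finset ℕ) : eigenKV (lev M l) P.p S W0.apOfModel = ⊥ := by
  by_contra hne
  have h1 : eigenKV (lev M l) P.p (insert P.p S) W0.apOfModel ≠ ⊥ := fun h0 =>
    hne (le_bot_iff.1 (h0 ▸ eigenKV_mono (Finset.subset_insert _ _) _))
  obtain ⟨S', hS'⟩ := nolow_list hC P W0 M l _
    ⟨hH.model, hH.irr, hH.four, hH.pM, Finset.mem_insert_self _ _, hH.ok, hH.nd, hH.pw⟩ h1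
  exact hno ⟨W0, S', hH.model, hS'⟩

/-- the same for the generalised eigenspace. -/
theorem genKV_lev_eq_bot (hC : CtrlStatement) (P : FreyPackage) (W0 : WeierstrassCurve ℤ)
    (S₀ : Finset ℕ) (M : ℕ) (l : List TWPt) [NeZero M] [NeZero (lev M l)] (hH : Hyp P W0 S₀ M l)
    (hno : ¬ Occ P M) (S : Finset ℕ) : genKV (lev M l) P.p S W0.apOfModel = ⊥ := by
  by_contra hne
  exact eigenKV_ne_bot_of_genKV P.pp.ne_zero S W0.apOfModel hne
    (eigenKV_lev_eq_bot hC P W0 S₀ M l hH hno _)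

end Fermat.Agent.S43.Tower.NoLow
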