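import Fermat.Agent.S43.Tower.PGroup
import Fermat.Agent.S43.Tower.Conc

/-!
# S43 / Tower / QuadU : the inputs `QuadAt` and `UnipOn` of `Tower/Conc.lean`  (G3 + G4, helper81)

* `tower_le_geo'` : `Tower.genKV n p S a ≤ Geo.genKV n p S a` (no condition);
* `quadAt_of` : `Tower.QuadAt P.p S' a s φ` for a Frobenius element `φ` at `A | s`, `s ≠ p`, `φ² - a_s φ + s = 0` on `E[p]`;
* `unipOn_of` : `Tower.UnipOn P.p S' a I_A` for `A | s`, `s ≠ p`, `E[p]` unramified at `A`;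
* `quadAt_of_ok`, `unipOn_of_ok` : the same from `Geo.TWPt.Ok`.
-/

set_option autoImplicit false
set_option linter.unusedSectionVars false
set_option linter.style.haveILetI false

noncomputable section

namespace Fermat.Agent.S43.Tower

open AlgebraicCurve ModularCurve Fermat.Agent.S24 Fermat.Agent.GAL Fermat.Agent.GAL.Hecke
  Fermat.Agent.DR Fermat.Agent.MR.Glue Fermat.Agent.MR.E

theorem tower_le_geo' (n p : ℕ) [NeZero n] (S : Finset ℕ) (a : ℕ → ℤ) :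
    Tower.genKV n p S a ≤ Geo.genKV n p S a := by
  intro x hx
  rw [Geo.mem_genKV]
  intro ℓ _ hℓ _ hS
  obtain ⟨m, hm⟩ := mem_gen.1 hx (⟨ℓ, hℓ, hS⟩ : Pri S)
  refine ⟨m, ?_⟩
  have e : TT n p S (⟨ℓ, hℓ, hS⟩ : Pri S) - a ℓ • (1 : AddMonoid.End (KV Kbar (FN n) p))
      = Geo.uKV n p ℓ (a ℓ) := by
    apply AddMonoidHom.ext
    intro y
    show heckeTtot n p ℓ y - a ℓ • y = heckeT Kbar n ℓ p y - a ℓ • y
    rw [heckeTtot_eq]
  rw [e, AddMonoid.End.coe_pow] at hm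
  exact hm

theorem ne_p_of_ok {P : FreyPackage} {a : ℕ → ℤ} {t : Geo.TWPt} (hok : t.Ok P a) : t.s ≠ P.p := by
  intro hsp
  obtain ⟨e, he, hP⟩ := hok.ppow
  have h1 : P.p ∣ t.s - 1 := (hP ▸ dvd_pow_self P.p he.ne').trans hok.dvd
  have h2 := hok.prime.two_le
  have h3 := Nat.le_of_dvd (by omega) h1
  omega

/-- **G3**. -/
theorem quadAt_of (P : FreyPackage) (W0 : WeierstrassCurve ℤ)
    (hW : W0.IsIntegralModelOf P.freyCurve) (S' : Finset ℕ) {A : ValuationSubring Kbar} {s : ℕ}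
    (hs : s.Prime) (hA : A.LiesOverPrime s) (hsp : s ≠ P.p) {φ : GQ} (hφ : A.IsFrobeniusAt φ s)
    (hfr : ∀ y : Ep P, φ • φ • y - W0.apOfModel s • φ • y + (s : ℤ) • y = 0) :
    QuadAt P.p S' W0.apOfModel s φ := by
  intro n _ _ x hx
  haveI : NeZero P.p := ⟨P.pp.ne_zero⟩
  exact PG.quad_nil P W0 hW n S' φ (W0.apOfModel s) s s (by simp) hfr
    (fun μ hμ => S31.frobenius_apply_root A hs hA hφ
      (fun h => hsp ((Nat.prime_dvd_prime_iff_eq hs P.pp).1 h)) hμ) x (tower_le_geo' n P.p S' _ hx)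

/-- **G4**. -/
theorem unipOn_of (P : FreyPackage) (W0 : WeierstrassCurve ℤ)
    (hW : W0.IsIntegralModelOf P.freyCurve) (S' : Finset ℕ) {A : ValuationSubring Kbar} {s : ℕ}
    (hs : s.Prime) (hA : A.LiesOverPrime s) (hsp : s ≠ P.p)
    (hun : ∀ τ ∈ A.inertiaSubgroupIn ℚ, ∀ y : Ep P, τ • y = y) :
    UnipOn P.p S' W0.apOfModel (A.inertiaSubgroupIn ℚ) := by
  intro n _ _ τ hτ x hx
  haveI : NeZero P.p := ⟨P.pp.ne_zero⟩
  obtain ⟨N, hN⟩ := PG.inertia_unip P W0 hW n S' hs hA hsp hτ (hun τ hτ) x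
    (tower_le_geo' n P.p S' _ hx)
  refine ⟨2 * N, ?_⟩
  have e : Tower.quad 2 1 (CH.gE n P.p τ) = (CH.gE n P.p τ - 1) ^ 2 := by
    rw [Tower.quad]
    push_cast
    noncomm_ring
  rw [e, ← pow_mul] at hN
  exact hN

theorem quadAt_of_ok {P : FreyPackage} {W0 : WeierstrassCurve ℤ}
    (hW : W0.IsIntegralModelOf P.freyCurve) (S' : Finset ℕ) {t : Geo.TWPt}
    (hok : t.Ok P W0.apOfModel) {φ : GQ} (hφ : t.A.IsFrobeniusAt φ t.s) :
    QuadAt P.p S' W0.apOfModel t.s φ :=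
  quadAt_of P W0 hW S' hok.prime hok.lies (ne_p_of_ok hok) hφ (hok.frob φ hφ)

theorem unipOn_of_ok {P : FreyPackage} {W0 : WeierstrassCurve ℤ}
    (hW : W0.IsIntegralModelOf P.freyCurve) (S' : Finset ℕ) {t : Geo.TWPt}
    (hok : t.Ok P W0.apOfModel) :
    UnipOn P.p S' W0.apOfModel (t.A.inertiaSubgroupIn ℚ) :=
  unipOn_of P W0 hW S' hok.prime hok.lies (ne_p_of_ok hok) hok.unram

end Fermat.Agent.S43.Tower
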