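import Fermat.Agent.S43.Tower.Conc
import Fermat.Agent.S43.Geo.Contract

/-!
# S43 / TOWER / BridgeG (glue G6) : `Tower.genKV` versus `Geo.genKV` and `MR.Glue.eigenKV`

* `Tower.genKV n p S' a` : `Tower.gen` of the `heckeTtot n p ℓ`, `ℓ` prime, `ℓ ∉ S'`;
* `Geo.genKV n p S a`    : iterate form, `heckeT`, `ℓ` prime, `ℓ ∤ n`, `ℓ ∉ S`.

(a) `tower_le_geo`, (b) `geo_le_tower`, (c) `eigen_of_gen`; also `eigen_le_tower`, `tower_eq_geo`.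
-/

set_option autoImplicit false
set_option linter.unusedSectionVars false

noncomputable section

namespace Fermat.Agent.S43.Tower

open AlgebraicCurve ModularCurve Fermat.Agent.S24 Fermat.Agent.GAL Fermat.Agent.GAL.Hecke
  Fermat.Agent.MR.Glue

variable {n p : ℕ} [NeZero n] {a : ℕ → ℤ}

theorem bridgeG_coe (S' : Finset ℕ) (ℓ : ℕ) [NeZero ℓ] (h : ℓ.Prime ∧ ℓ ∉ S') :
    ⇑(TT n p S' ⟨ℓ, h⟩ - a ℓ • (1 : AddMonoid.End (KV Kbar (FN n) p)))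
      = ⇑(Geo.uKV n p ℓ (a ℓ)) := by
  funext y
  rw [Geo.uKV_apply, ← heckeTtot_eq n p ℓ]
  rfl

/-- membership in `Tower.genKV`, iterate form. -/
theorem mem_genKV_iff_iterate {S' : Finset ℕ} {x : KV Kbar (FN n) p} :
    x ∈ genKV n p S' a ↔ ∀ (ℓ : ℕ) [NeZero ℓ], ℓ.Prime → ℓ ∉ S' →
      ∃ k : ℕ, (Geo.uKV n p ℓ (a ℓ))^[k] x = 0 := by
  constructor
  · intro hx ℓ _ h1 h2
    obtain ⟨m, hm⟩ := hx ⟨ℓ, h1, h2⟩
    refine ⟨m, ?_⟩
    rw [← bridgeG_coe (n := n) (p := p) (a := a) S' ℓ ⟨h1, h2⟩, ← AddMonoid.End.coe_pow]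
    exact hm
  · intro hx ℓ
    haveI : NeZero ℓ.1 := ⟨ℓ.2.1.ne_zero⟩
    obtain ⟨m, hm⟩ := hx ℓ.1 ℓ.2.1 ℓ.2.2
    refine ⟨m, ?_⟩
    rw [← bridgeG_coe (n := n) (p := p) (a := a) S' ℓ.1 ℓ.2, ← AddMonoid.End.coe_pow] at hm
    exact hm

/-- **(G6 a)** -/
theorem tower_le_geo {S S' : Finset ℕ} (h : ∀ ℓ : ℕ, ℓ.Prime → ¬ ℓ ∣ n → ℓ ∉ S → ℓ ∉ S') :
    genKV n p S' a ≤ Geo.genKV n p S a := by
  intro x hx
  rw [Geo.mem_genKV]
  intro ℓ _ h1 h2 h3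
  exact mem_genKV_iff_iterate.1 hx ℓ h1 (h ℓ h1 h2 h3)

/-- **(G6 b)** -/
theorem geo_le_tower {S S' : Finset ℕ} (h : ∀ ℓ : ℕ, ℓ.Prime → ℓ ∉ S' → ¬ ℓ ∣ n ∧ ℓ ∉ S) :
    Geo.genKV n p S a ≤ genKV n p S' a := by
  intro x hx
  refine mem_genKV_iff_iterate.2 fun ℓ _ h1 h2 => ?_
  exact (Geo.mem_genKV.1 hx) ℓ h1 (h ℓ h1 h2).1 (h ℓ h1 h2).2

/-- the two generalised eigenspaces agree when `S'` contains the primes of `n`. -/
theorem tower_eq_geo {S' : Finset ℕ} (hS : ∀ r : ℕ, r.Prime → r ∣ n → r ∈ S') :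
    genKV n p S' a = Geo.genKV n p S' a :=
  le_antisymm (tower_le_geo fun _ _ _ h3 => h3)
    (geo_le_tower fun ℓ h1 h2 => ⟨fun hd => h2 (hS ℓ h1 hd), h2⟩)

/-- with `S' = S ∪ n.primeFactors`. -/
theorem tower_union_eq_geo (S : Finset ℕ) :
    genKV n p (S ∪ n.primeFactors) a = Geo.genKV n p S a := by
  refine le_antisymm (tower_le_geo fun ℓ h1 h2 h3 h4 => ?_) (geo_le_tower fun ℓ h1 h2 => ⟨?_, ?_⟩)
  · rcases Finset.mem_union.1 h4 with h4 | h4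
    · exact h3 h4
    · exact h2 (Nat.dvd_of_mem_primeFactors h4)
  · exact fun hd => h2 (Finset.mem_union_right _ (Nat.mem_primeFactors.2 ⟨h1, hd, NeZero.ne n⟩))
  · exact fun hS => h2 (Finset.mem_union_left _ hS)

/-- the eigenspace is contained in `Tower.genKV`. -/
theorem eigen_le_tower {S S' : Finset ℕ} (h : ∀ ℓ : ℕ, ℓ.Prime → ℓ ∉ S' → ¬ ℓ ∣ n ∧ ℓ ∉ S) :
    eigenKV n p S a ≤ genKV n p S' a :=
  (Geo.eigenKV_le_genKV n p S a).trans (geo_le_tower h)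

theorem bridgeG_TT_commute (hB : Basic p) {S' : Finset ℕ} (hS : ∀ r : ℕ, r.Prime → r ∣ n → r ∈ S')
    (i j : Pri S') : Commute (TT n p S' i) (TT n p S' j) := by
  ext x
  exact hB.comm n i.2.1 j.2.1 (fun h => i.2.2 (hS _ i.2.1 h)) (fun h => j.2.2 (hS _ j.2.1 h)) x

/-- **(G6 c)** a non zero generalised eigenspace contains a non zero eigenvector. -/
theorem eigen_of_gen (hB : Basic p) {S' : Finset ℕ} (hS : ∀ r : ℕ, r.Prime → r ∣ n → r ∈ S')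
    (h : genKV n p S' a ≠ ⊥) : eigenKV n p S' a ≠ ⊥ := by
  haveI : Finite (KV Kbar (FN n) p) := hB.fin n
  obtain ⟨x, -, hx0, hx⟩ := exists_eigen (T := TT n p S') (a := fun ℓ => a ℓ.1)
    (bridgeG_TT_commute hB hS) (genKV n p S' a) h
    (fun i x hx => gen_stable (fun j => bridgeG_TT_commute hB hS j i) hx) le_rfl
  intro hbot
  have hmem : x ∈ eigenKV n p S' a := by
    intro ℓ _ h1 _ h3
    have := hx ⟨ℓ, h1, h3⟩
    rw [← heckeTtot_eq n p ℓ]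
    exact this
  rw [hbot] at hmem
  exact hx0 ((AddSubgroup.mem_bot).1 hmem)

/-- the converse of `eigen_of_gen`. -/
theorem gen_of_eigen {S' : Finset ℕ} (hS : ∀ r : ℕ, r.Prime → r ∣ n → r ∈ S')
    (h : eigenKV n p S' a ≠ ⊥) : genKV n p S' a ≠ ⊥ := by
  intro hbot
  apply h
  have := eigen_le_tower (n := n) (p := p) (a := a) (S := S') (S' := S')
    fun ℓ h1 h2 => ⟨fun hd => h2 (hS ℓ h1 hd), h2⟩
  rw [hbot] at this
  exact le_bot_iff.1 this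

end Fermat.Agent.S43.Tower
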