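import Fermat.Agent.S43.Tower.Defs

/-! # S43 / TOWER / Idem : the projector trick (leaves A1, A3; `gen`, `gen_stable`, `map_mem_gen` are in `Tower/Abs.lean`) -/

set_option autoImplicit false

namespace Fermat.Agent.S43.Tower

open Fermat.Agent.S43.Ctrl (opE)

variable {ι X Y : Type*} [AddCommGroup X] [AddCommGroup Y]

/-- LEAF A1.  (pigeonhole: `x^m = x^n`, `m < n`, `c = n - m`; `x^(m'+c) = x^m'` for `m' ≥ m`; take the exponent `(m+1) c`.) -/
theorem exists_idem_pow {M : Type*} [Monoid M] [Finite M] (x : M) :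
    ∃ n : ℕ, 0 < n ∧ x ^ n * x ^ n = x ^ n := by
  obtain ⟨m, n, hne, h⟩ := Finite.exists_ne_map_eq_of_infinite (fun n : ℕ => x ^ n)
  have key : ∀ m n : ℕ, m < n → x ^ m = x ^ n → ∃ N : ℕ, 0 < N ∧ x ^ N * x ^ N = x ^ N := by
    intro m n hlt h
    obtain ⟨c, rfl⟩ := Nat.exists_eq_add_of_lt hlt
    have h1 : ∀ m', m ≤ m' → x ^ (m' + (c + 1)) = x ^ m' := by
      intro m' hm'
      obtain ⟨d, rfl⟩ := Nat.exists_eq_add_of_le hm'
      rw [show m + d + (c + 1) = (m + c + 1) + d by ring, pow_add, ← h, ← pow_add]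
    have h2 : ∀ k m', m ≤ m' → x ^ (m' + k * (c + 1)) = x ^ m' := by
      intro k
      induction k with
      | zero => intro m' _; simp
      | succ k ih =>
        intro m' hm'
        rw [show m' + (k + 1) * (c + 1) = (m' + k * (c + 1)) + (c + 1) by ring,
          h1 _ (hm'.trans (Nat.le_add_right _ _)), ih m' hm']
    refine ⟨(m + 1) * (c + 1), by positivity, ?_⟩
    rw [← pow_add]
    exact h2 (m + 1) _ (by nlinarith)
  rcases lt_or_gt_of_ne hne with hlt | hlt
  · exact key m n hlt h
  · exact key n m hlt h.symm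

/-- LEAF A3 (**projector trick**).  PROOF: for each `i` take `n i > 0` with `((TY i - a i • 1), (T i - a i • 1)) ^ n i` idempotent in the finite
monoid `End Y × End X` (`exists_idem_pow`).  `E i := (TY i - a i • 1) ^ n i`.  By finiteness of `Y` there is a finite set `F` of
indices with `⋂_{i ∈ F} ker (E i) = ⋂_i ker (E i)`  (e.g. `F` minimising the cardinality of the intersection).
`y' := ∏_{i ∈ F} (1 - E i) y` (`Finset.noncommProd` or a `List`/induction on `F`; the `E i` commute).  `E i y' = 0` for `i ∈ F`, hence for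
all `i`: `y' ∈ gen`.  `δ ((1 - E i) z) = δ z - ((T i - a i • 1) ^ n i) (δ z)` and `((T i - a i • 1) ^ n i) x = 0` for `x ∈ gen T a` (idempotent and
nilpotent on `x`); `gen` is stable, so by induction `δ y' = δ y`. -/
theorem exists_gen_lift [Finite X] [Finite Y] (T : ι → AddMonoid.End X) (TY : ι → AddMonoid.End Y)
    (a : ι → ℤ) (hTY : ∀ i j, Commute (TY i) (TY j)) (hT : ∀ i j, Commute (T i) (T j)) (δ : Y →+ X)
    (hδ : ∀ i y, δ (TY i y) = T i (δ y)) (y : Y) (hy : δ y ∈ gen T a) :
    ∃ y' ∈ gen TY a, δ y' = δ y := by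
  have hfin : Finite (AddMonoid.End Y) :=
    Finite.of_injective (fun f : AddMonoid.End Y => (f : Y → Y)) DFunLike.coe_injective
  have main : ∀ n : ℕ, ∀ H : AddSubgroup Y, Nat.card H = n → (∀ i, ∀ h ∈ H, TY i h ∈ H) →
      ∀ z ∈ H, δ z ∈ gen T a → ∃ y' ∈ gen TY a, δ y' = δ z := by
    intro n
    induction n using Nat.strong_induction_on with
    | _ n ih =>
      intro H hn hH z hz hδz
      by_cases hall : z ∈ gen TY a
      · exact ⟨z, hall, rfl⟩
      · rw [mem_gen] at hall
        push Not at hall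
        obtain ⟨i, hi⟩ := hall
        obtain ⟨k, hk0, hk⟩ := exists_idem_pow (TY i - a i • 1 : AddMonoid.End Y)
        obtain ⟨m, hm⟩ := hδz i
        have hEpow : ((TY i - a i • 1 : AddMonoid.End Y) ^ k) ^ (m + 1)
            = (TY i - a i • 1 : AddMonoid.End Y) ^ k :=
          IsIdempotentElem.pow_succ_eq m hk
        have hEz : δ (((TY i - a i • 1 : AddMonoid.End Y) ^ k) z) = 0 := by
          rw [← hEpow, ← pow_mul,
            ← pow_intertwine δ (sub_smul_intertwine δ (fun y => (hδ i y).symm) (a i))]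
          have hle : m ≤ k * (m + 1) := by nlinarith
          have he : k * (m + 1) = (k * (m + 1) - m) + m := (Nat.sub_add_cancel hle).symm
          rw [he, pow_add]
          show ((T i - a i • 1 : AddMonoid.End X) ^ (k * (m + 1) - m))
            (((T i - a i • 1 : AddMonoid.End X) ^ m) (δ z)) = 0
          rw [hm, map_zero]
        have hstabf : ∀ x ∈ H, (TY i - a i • 1 : AddMonoid.End Y) x ∈ H := fun x hx =>
          H.sub_mem (hH i x hx) (H.zsmul_mem hx _)
        have hstabp : ∀ m : ℕ, ∀ x ∈ H, ((TY i - a i • 1 : AddMonoid.End Y) ^ m) x ∈ H := by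
          intro m
          induction m with
          | zero => exact fun x hx => hx
          | succ m ihm =>
            intro x hx
            have : ((TY i - a i • 1 : AddMonoid.End Y) ^ (m + 1)) x
                = ((TY i - a i • 1 : AddMonoid.End Y) ^ m) ((TY i - a i • 1 : AddMonoid.End Y) x) := by
              rw [pow_succ]; rfl
            rw [this]
            exact ihm _ (hstabf x hx)
        let H' : AddSubgroup Y := H ⊓ ((TY i - a i • 1 : AddMonoid.End Y) ^ k : AddMonoid.End Y).ker
        have hH'lt : H' < H := by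
          refine lt_of_le_of_ne inf_le_left fun h => hi k ?_
          have h1 : z ∈ H' := h ▸ hz
          exact h1.2
        have hH'T : ∀ j, ∀ x ∈ H', TY j x ∈ H' := by
          intro j x hx
          refine ⟨hH j x hx.1, ?_⟩
          have h1 : ((TY i - a i • 1 : AddMonoid.End Y) ^ k) x = 0 := hx.2
          have hc : Commute ((TY i - a i • 1 : AddMonoid.End Y) ^ k) (TY j) :=
            (commute_sub_smul (hTY i j) _).pow_left k
          have h2 : ((TY i - a i • 1 : AddMonoid.End Y) ^ k) (TY j x)
              = TY j (((TY i - a i • 1 : AddMonoid.End Y) ^ k) x) :=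
            congrArg (fun f : AddMonoid.End Y => f x) hc.eq
          show ((TY i - a i • 1 : AddMonoid.End Y) ^ k) (TY j x) = 0
          rw [h2, h1, map_zero]
        have hcard : Nat.card H' < n := by
          rw [← hn]
          exact Set.ncard_lt_ncard (s := (H' : Set Y)) (t := (H : Set Y))
            (SetLike.coe_ssubset_coe.mpr hH'lt) (Set.toFinite _)
        have hz' : z - ((TY i - a i • 1 : AddMonoid.End Y) ^ k) z ∈ H' := by
          refine ⟨H.sub_mem hz (hstabp k z hz), ?_⟩
          show ((TY i - a i • 1 : AddMonoid.End Y) ^ k)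
            (z - ((TY i - a i • 1 : AddMonoid.End Y) ^ k) z) = 0
          rw [map_sub, sub_eq_zero]
          exact (congrArg (fun f : AddMonoid.End Y => f z) hk).symm
        have hδz' : δ (z - ((TY i - a i • 1 : AddMonoid.End Y) ^ k) z) = δ z := by
          rw [map_sub, hEz, sub_zero]
        obtain ⟨y', hy', hy'δ⟩ := ih _ hcard H' rfl hH'T _ hz' (hδz'.symm ▸ hδz)
        exact ⟨y', hy', hy'δ.trans hδz'⟩
  exact main _ ⊤ rfl (fun _ _ _ => AddSubgroup.mem_top _) y (AddSubgroup.mem_top _) hy

end Fermat.Agent.S43.Tower
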