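import Fermat.Agent.S43.Tower.Step1

/-!
# S43 / TOWER / Iter : the iteration over the Taylor-Wiles primes

`control` (T1), `size` (T2), `nolow` (T3), from the one-prime inputs `Basic`, `CtrlIn`, `QuadAt`, `UnipOn`, `SizeAt` of `Tower/Conc.lean`.

The Taylor-Wiles points are indexed by an arbitrary type `ι` (`ι := Geo.TWPt` in the application): `sv i` is the prime, `pl i` a place over it,
`fb i` a Frobenius element at `pl i`.  The level is `lev M (l.map sv)`.  The primed versions `control'`, `size'`, `nolow'` are stated at a level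
`n` with `hn : n = lev M (l.map sv)` (no casts).
-/

set_option autoImplicit false
set_option linter.unusedSectionVars false
set_option linter.style.haveILetI false

noncomputable section

namespace Fermat.Agent.S43.Tower

open AlgebraicCurve ModularCurve Fermat.Agent.S24 Fermat.Agent.GAL Fermat.Agent.GAL.Hecke
  Fermat.Agent.DR Fermat.Agent.DR.Hecke Fermat.Agent.S43.Size

/-- the hypotheses on the list `l` of Taylor-Wiles points (`sv i` the prime, `pl i` a place over `sv i`, `fb i` a Frobenius at `pl i`). -/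
structure TWHyp {ι : Type*} (p : ℕ) (S : Finset ℕ) (a : ℕ → ℤ) (M : ℕ) (sv : ι → Nat.Primes)
    (pl : ι → ValuationSubring Kbar) (fb : ι → GQ) (l : List ι) : Prop where
  hp : p.Prime
  hpS : p ∈ S
  h4 : 4 ∣ M
  hS : ∀ r : ℕ, r.Prime → r ∣ lev M (l.map sv) → r ∈ S
  nodup : (l.map sv).Nodup
  hM : ∀ i ∈ l, ¬ (sv i : ℕ) ∣ M
  lies : ∀ i ∈ l, (pl i).LiesOverPrime (sv i)
  frob : ∀ i ∈ l, (pl i).IsFrobeniusAt (fb i) (sv i)
  h5 : ∀ i ∈ l, 5 ≤ (sv i : ℕ)
  hsp : ∀ i ∈ l, (sv i : ℕ) ≠ p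
  hs1 : ∀ i ∈ l, (p : ℤ) ∣ ((sv i : ℕ) : ℤ) - 1
  ht : ∀ i ∈ l, ¬ (p : ℤ) ∣ a (sv i) ^ 2 - 4
  hQ : ∀ i ∈ l, QuadAt p S a (sv i) (fb i)

variable {ι : Type*} {p : ℕ} {S : Finset ℕ} {a : ℕ → ℤ} {M : ℕ} [NeZero M] {sv : ι → Nat.Primes}
  {pl : ι → ValuationSubring Kbar} {fb : ι → GQ} {i : ι} {l : List ι}

theorem TWHyp.tail (h : TWHyp p S a M sv pl fb (i :: l)) : TWHyp p S a M sv pl fb l where
  hp := h.hp
  hpS := h.hpS
  h4 := h.h4
  hS := fun r hr hd => h.hS r hr ((hd.mul_right _).mul_right _)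
  nodup := (List.nodup_cons.1 h.nodup).2
  hM := fun t ht => h.hM t (List.mem_cons_of_mem _ ht)
  lies := fun t ht => h.lies t (List.mem_cons_of_mem _ ht)
  frob := fun t ht => h.frob t (List.mem_cons_of_mem _ ht)
  h5 := fun t ht => h.h5 t (List.mem_cons_of_mem _ ht)
  hsp := fun t ht => h.hsp t (List.mem_cons_of_mem _ ht)
  hs1 := fun t ht => h.hs1 t (List.mem_cons_of_mem _ ht)
  ht := fun t ht => h.ht t (List.mem_cons_of_mem _ ht)
  hQ := fun t ht => h.hQ t (List.mem_cons_of_mem _ ht)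

theorem TWHyp.not_dvd (h : TWHyp p S a M sv pl fb (i :: l)) : ¬ (sv i : ℕ) ∣ lev M (l.map sv) := by
  intro hd
  rcases prime_dvd_lev (sv i).2 hd with hd | ⟨t, ht, hts⟩
  · exact h.hM i List.mem_cons_self hd
  · exact (List.nodup_cons.1 h.nodup).1 ((Subtype.ext hts : t = sv i) ▸ ht)

/-- the one-step hypotheses at the top prime. -/
theorem TWHyp.step (hC : CtrlIn p) (h : TWHyp p S a M sv pl fb (i :: l)) :
    ∃ e : ℤ, StepHyp p S a (lev M (l.map sv)) (sv i) (pl i) (fb i) e := by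
  have hm : i ∈ i :: l := List.mem_cons_self
  obtain ⟨e, he, h1, h2⟩ := hC (lev M (l.map sv)) (sv i) (sv i).2 h.not_dvd (h.h4.trans (dvd_lev M _))
    (h.h5 i hm) (h.hsp i hm) (pl i) (h.lies i hm) (fb i) (h.frob i hm)
  exact ⟨e, ⟨h.hp, h.hpS, h.hS, h.frob i hm, he, h.hs1 i hm, h.ht i hm, h.hQ i hm, h1, h2⟩⟩

/-- **(T1) CONTROL.** -/
theorem control (hB : Basic p) (hC : CtrlIn p) (J0 : Set GQ) :
    ∀ (l : List ι), TWHyp p S a M sv pl fb l →
      Nat.card {x : KV Kbar (FN (lev M (l.map sv))) p // x ∈ genKV (lev M (l.map sv)) p S a ∧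
          ∀ g ∈ Jset pl l ∪ J0, g • x = x} ≤
        Nat.card {x : KV Kbar (FN M) p // x ∈ genKV M p S a ∧ ∀ g ∈ J0, g • x = x} ^ (3 ^ l.length)
  | [], _ => by
    have : Jset pl [] ∪ J0 = J0 := by
      ext g
      simp [Jset]
    rw [this, List.length_nil, pow_zero, pow_one]
    exact le_rfl
  | (i :: l), h => by
    obtain ⟨e, hst⟩ := h.step hC
    haveI := hB.fin (lev M (l.map sv))
    have h1 := card_step (G := GQ) (dlt3 p (lev M (l.map sv)) (sv i)) (dlt3_smul p (lev M (l.map sv)) (sv i))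
      (genKV (lev M (l.map sv) * (sv i) * (sv i)) p S a) (gen3 p S a (lev M (l.map sv)))
      (fun g y hy => ⟨smul_mem_genKV _ g hy.1, smul_mem_genKV _ g hy.2.1, smul_mem_genKV _ g hy.2.2⟩)
      hst.inj ((pl i).inertiaSubgroupIn ℚ : Set GQ) (Jset pl l ∪ J0)
      (fun x hx hI => hst.ctrl hB x hx hI)
    have h2 := card_triple (G := GQ) (genKV (lev M (l.map sv)) p S a) (Jset pl l ∪ J0)
    have h3 := control hB hC J0 l h.tail
    rw [Jset_cons, Set.union_assoc]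
    calc _ ≤ _ := h1
      _ = _ := h2
      _ ≤ (Nat.card {x : KV Kbar (FN M) p // x ∈ genKV M p S a ∧ ∀ g ∈ J0, g • x = x} ^
            (3 ^ l.length)) ^ 3 := Nat.pow_le_pow_left h3 3
      _ = _ := by rw [← pow_mul, List.length_cons, pow_succ]

theorem zOf_smul' (L s : ℕ) [NeZero L] [NeZero s] (g : GQ) (x : KV Kbar (FN L) p) :
    zOf L s p (g • x) = g • zOf L s p x := by
  rw [zOf_apply, zOf_apply, heckeT_galois_smul, aPull_smul, aPull_smul, bPull_smul, aPull_smul,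
    bPull_smul, bPull_smul, smul_add, smul_sub, smul_comm]

theorem StepHyp.zOf_inj {L s : ℕ} [NeZero L] [NeZero s] {A : ValuationSubring Kbar} {φ : GQ} {e : ℤ}
    (h : StepHyp p S a L s A φ e) (z : KV Kbar (FN L) p) (hz : z ∈ genKV L p S a)
    (h0 : zOf L s p z = 0) : z = 0 := by
  have h1 : pull1 L s p (s • z) + pullS L s p (- heckeT Kbar L s p z) + pullS2 L s p z = 0 := by
    rw [map_nsmul, map_neg, ← sub_eq_add_neg]
    exact h0
  exact h.polI_inj L h.hSL z hz (h.hY2 _ _ _ h1).2.2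

/-- **(T2) SIZE.** -/
theorem size (hC : CtrlIn p) (sg : ι → GQ) (Pw : ι → ℕ) (h0 : genKV M p S a ≠ ⊥) :
    ∀ (l : List ι), TWHyp p S a M sv pl fb l → (∀ i ∈ l, SizeAt p S a (sv i) (sg i) (Pw i)) →
      ∃ w ∈ genKV (lev M (l.map sv)) p S a, nprod (l.map fun i => (sg i, Pw i)) w ≠ 0
  | [], _, _ => by
    obtain ⟨x, hx0⟩ := (AddSubgroup.ne_bot_iff_exists_ne_zero).mp h0
    exact ⟨x.1, x.2, fun h => hx0 (Subtype.ext h)⟩
  | (i :: l), h, hG => by
    obtain ⟨e, hst⟩ := h.step hC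
    have ih := size hC sg Pw h0 l h.tail (fun t ht => hG t (List.mem_cons_of_mem _ ht))
    exact step_size (G := GQ) (genKV (lev M (l.map sv) * (sv i) * (sv i)) p S a) (genKV (lev M (l.map sv)) p S a)
      (fun g z hz => smul_mem_genKV _ g hz) (zOf (lev M (l.map sv)) (sv i) p) (zOf_smul' _ _) hst.zOf_inj
      (sg i) (Pw i)
      (hG i List.mem_cons_self (lev M (l.map sv)) h.not_dvd (h.h4.trans (dvd_lev M _)) h.hS)
      (l.map fun i => (sg i, Pw i)) ih

/-- **(T3) NOLOW.** -/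
theorem nolow (hB : Basic p) (hC : CtrlIn p) :
    ∀ (l : List ι), TWHyp p S a M sv pl fb l →
      (∀ i ∈ l, UnipOn p S a ((pl i).inertiaSubgroupIn ℚ)) → genKV (lev M (l.map sv)) p S a ≠ ⊥ →
        genKV M p S a ≠ ⊥
  | [], _, _, h0 => h0
  | (i :: l), h, hU, h0 => by
    obtain ⟨e, hst⟩ := h.step hC
    haveI : Fact p.Prime := ⟨h.hp⟩
    haveI := hB.fin (lev M (l.map sv) * (sv i) * (sv i))
    obtain ⟨x, hx, hx0, hfix⟩ := exists_fixed p ((pl i).inertiaSubgroupIn ℚ)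
      (genKV (lev M (l.map sv) * (sv i) * (sv i)) p S a) (fun x _ => KV.nsmul_eq_zero x)
      (fun τ _ x hx => smul_mem_genKV _ τ hx) (hU i List.mem_cons_self (lev M (l.map sv) * (sv i) * (sv i)) h.hS) h0
    obtain ⟨y, hy, rfl⟩ := hst.ctrl hB x hx hfix
    refine nolow hB hC l h.tail (fun t ht => hU t (List.mem_cons_of_mem _ ht)) fun hbot => hx0 ?_
    have e0 : y.1 = 0 := (AddSubgroup.mem_bot).1 (hbot ▸ hy.1)
    have e1 : y.2.1 = 0 := (AddSubgroup.mem_bot).1 (hbot ▸ hy.2.1)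
    have e2 : y.2.2 = 0 := (AddSubgroup.mem_bot).1 (hbot ▸ hy.2.2)
    rw [dlt3_apply, e0, e1, e2, map_zero, map_zero, map_zero, add_zero, add_zero]

/-! ### cast-free forms -/

/-- **(T1) CONTROL**, at a level `n = lev M (l.map sv)`. -/
theorem control' (hB : Basic p) (hC : CtrlIn p) (J0 : Set GQ) (l : List ι) (h : TWHyp p S a M sv pl fb l)
    (n : ℕ) [NeZero n] (hn : n = lev M (l.map sv)) :
    Nat.card {x : KV Kbar (FN n) p // x ∈ genKV n p S a ∧ ∀ g ∈ Jset pl l ∪ J0, g • x = x} ≤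
      Nat.card {x : KV Kbar (FN M) p // x ∈ genKV M p S a ∧ ∀ g ∈ J0, g • x = x} ^ (3 ^ l.length) := by
  subst hn
  exact control hB hC J0 l h

/-- **(T2) SIZE**, at a level `n = lev M (l.map sv)`. -/
theorem size' (hC : CtrlIn p) (sg : ι → GQ) (Pw : ι → ℕ) (h0 : genKV M p S a ≠ ⊥) (l : List ι)
    (h : TWHyp p S a M sv pl fb l) (hG : ∀ i ∈ l, SizeAt p S a (sv i) (sg i) (Pw i))
    (n : ℕ) [NeZero n] (hn : n = lev M (l.map sv)) :
    ∃ w ∈ genKV n p S a, nprod (l.map fun i => (sg i, Pw i)) w ≠ 0 := by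
  subst hn
  exact size hC sg Pw h0 l h hG

/-- **(T3) NOLOW**, at a level `n = lev M (l.map sv)`. -/
theorem nolow' (hB : Basic p) (hC : CtrlIn p) (l : List ι) (h : TWHyp p S a M sv pl fb l)
    (hU : ∀ i ∈ l, UnipOn p S a ((pl i).inertiaSubgroupIn ℚ))
    (n : ℕ) [NeZero n] (hn : n = lev M (l.map sv)) (h0 : genKV n p S a ≠ ⊥) : genKV M p S a ≠ ⊥ := by
  subst hn
  exact nolow hB hC l h hU h0

end Fermat.Agent.S43.Tower
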