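import Fermat.Agent.S43.Tower.Frob

/-!
# S43 / TOWER / NoLowAbs : the abstract step of (NOLOW)

`E` = a copy of `E[p]` inside the eigenspace of `V = V_p(L s²)` (`f : E → V` injective, Frobenius equivariant), on which
`φ² - t φ + s = 0`, `s = 1`, `t² ≠ 4` mod `p`.  From Theorem Y (`hmain`, `hinj`) we get a non zero eigenvector in `V' = V_p(L)`.
-/

set_option autoImplicit false

namespace Fermat.Agent.S43.Tower

open Fermat.Agent.S43.Ctrl (opE)

section

variable {E V V' : Type*} [AddCommGroup E] [AddCommGroup V] [AddCommGroup V']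

theorem opE_intertwine (s : ℤ) (g : E →+ V) (φE : E →+ E) (φ : V →+ V)
    (h : ∀ x, g (φE x) = φ (g x)) (x : E) : g (opE s φE x) = opE s φ (g x) := by
  simp only [opE, map_sub, map_zsmul, h]

theorem polY_intertwine (s : ℤ) (g : E →+ V) (φE : E →+ E) (φ : V →+ V)
    (h : ∀ x, g (φE x) = φ (g x)) (x : E) : g (polY s φE x) = polY s φ (g x) := by
  simp only [polY, map_zsmul, h, opE_intertwine s g φE φ h, map_sub]

theorem polI_intertwine (s : ℤ) (g : E →+ V) (φE : E →+ E) (φ : V →+ V)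
    (h : ∀ x, g (φE x) = φ (g x)) (x : E) : g (polI s φE x) = polI s φ (g x) := by
  simp only [polI, map_zsmul, h, opE_intertwine s g φE φ h]

theorem opE_add (s : ℤ) (φ : V →+ V) (x y : V) : opE s φ (x + y) = opE s φ x + opE s φ y := by
  simp only [opE, map_add, smul_add]; abel

theorem polI_add (s : ℤ) (φ : V →+ V) (x y : V) : polI s φ (x + y) = polI s φ x + polI s φ y := by
  simp only [polI, opE_add, map_add, smul_add]

theorem opE_sub (s : ℤ) (φ : V →+ V) (x y : V) : opE s φ (x - y) = opE s φ x - opE s φ y := by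
  simp only [opE, map_sub, smul_sub]; abel

theorem polI_sub (s : ℤ) (φ : V →+ V) (x y : V) : polI s φ (x - y) = polI s φ x - polI s φ y := by
  simp only [polI, opE_sub, map_sub, smul_sub]

theorem opE_zsmul (s : ℤ) (φ : V →+ V) (c : ℤ) (x : V) : opE s φ (c • x) = c • opE s φ x := by
  simp only [opE, map_zsmul, smul_sub]
  rw [smul_comm]

theorem polI_zsmul (s : ℤ) (φ : V →+ V) (c : ℤ) (x : V) : polI s φ (c • x) = c • polI s φ x := by
  simp only [polI, opE_zsmul, map_zsmul]
  rw [smul_comm]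

/-- **the abstract step of (NOLOW).** -/
theorem nolow_abs (p : ℕ) [Fact p.Prime] (t s : ℤ)
    (φE : E →+ E) (φ : V →+ V) (X : V' →+ V') (f : E →+ V) (hf : Function.Injective f)
    (hfφ : ∀ x, f (φE x) = φ (f x))
    (hpE : ∀ x : E, p • x = 0) (hq : ∀ x : E, φE (φE x) - t • φE x + s • x = 0)
    (hs : (p : ℤ) ∣ s - 1) (ht : ¬ (p : ℤ) ∣ t ^ 2 - 4)
    (d1 ds dss : V' →+ V) (comm1 : ∀ z, φ (d1 z) = d1 (X z)) (comms : ∀ z, φ (ds z) = ds (X z))
    (commss : ∀ z, φ (dss z) = dss (X z))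
    (hmain : ∀ x : E, ∃ z0 z1 z2, polY s φ (f x) = d1 z0 + ds z1 + dss z2)
    (hinj : ∀ z0 z1 z2, d1 z0 + ds z1 + dss z2 = 0 →
      polI s X z0 = 0 ∧ polI s X z1 = 0 ∧ polI s X z2 = 0)
    {ι : Type*} (T : ι → V →+ V) (T' : ι → V' →+ V') (a : ι → ℤ)
    (hT1 : ∀ i z, T i (d1 z) = d1 (T' i z)) (hTs : ∀ i z, T i (ds z) = ds (T' i z))
    (hTss : ∀ i z, T i (dss z) = dss (T' i z))
    (hT'X : ∀ i z, T' i (X z) = X (T' i z))
    (heig : ∀ i x, T i (f x) = a i • f x)
    (x : E) (hx : x ≠ 0) : ∃ z : V', z ≠ 0 ∧ ∀ i, T' i z = a i • z := by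
  have hquad : ∀ y ∈ (⊤ : AddSubgroup E), ∃ N : ℕ, (quad t s φE ^ N) y = 0 := by
    intro y _
    exact ⟨1, by rw [pow_one]; exact hq y⟩
  have hY : polY s φE x ≠ 0 := fun h0 =>
    hx (polY_inj p t s φE ⊤ (fun y _ => hpE y) (fun _ _ => trivial) hquad hs ht x trivial h0)
  have hI : polI s φE (polY s φE x) ≠ 0 := fun h0 =>
    hY (polI_inj p t s φE ⊤ (fun y _ => hpE y) (fun _ _ => trivial) hquad hs ht _ trivial h0)
  obtain ⟨z0, z1, z2, hz⟩ := hmain x
  rw [← polY_intertwine s f φE φ hfφ] at hz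
  -- the eigenvector property
  have heigz : ∀ i, T' i (polI s X z0) = a i • polI s X z0 ∧ T' i (polI s X z1) = a i • polI s X z1 ∧
      T' i (polI s X z2) = a i • polI s X z2 := by
    intro i
    have h1 := heig i (polY s φE x)
    rw [hz, map_add, map_add, hT1, hTs, hTss] at h1
    have h2 : d1 (T' i z0 - a i • z0) + ds (T' i z1 - a i • z1) + dss (T' i z2 - a i • z2) = 0 := by
      simp only [map_sub, map_zsmul]
      have : d1 (T' i z0) + ds (T' i z1) + dss (T' i z2) - a i • (d1 z0 + ds z1 + dss z2) = 0 :=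
        sub_eq_zero.2 h1
      rw [← this]
      simp only [smul_add]
      abel
    obtain ⟨e0, e1, e2⟩ := hinj _ _ _ h2
    have key : ∀ z, polI s X (T' i z - a i • z) = 0 → T' i (polI s X z) = a i • polI s X z := by
      intro z hz0
      rw [polI_sub, polI_zsmul, sub_eq_zero] at hz0
      rw [← hz0]
      exact polI_intertwine s (T' i) X X (hT'X i) z
    exact ⟨key _ e0, key _ e1, key _ e2⟩
  -- one of them is non zero
  have hne : ¬ (polI s X z0 = 0 ∧ polI s X z1 = 0 ∧ polI s X z2 = 0) := by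
    rintro ⟨e0, e1, e2⟩
    apply hI
    apply hf
    rw [polI_intertwine s f φE φ hfφ, hz, polI_add, polI_add,
      ← polI_intertwine s d1 X φ (fun z => (comm1 z).symm),
      ← polI_intertwine s ds X φ (fun z => (comms z).symm),
      ← polI_intertwine s dss X φ (fun z => (commss z).symm), e0, e1, e2]
    simp
  by_cases e0 : polI s X z0 = 0
  · by_cases e1 : polI s X z1 = 0
    · by_cases e2 : polI s X z2 = 0
      · exact absurd ⟨e0, e1, e2⟩ hne
      · exact ⟨_, e2, fun i => (heigz i).2.2⟩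
    · exact ⟨_, e1, fun i => (heigz i).2.1⟩
  · exact ⟨_, e0, fun i => (heigz i).1⟩

end

end Fermat.Agent.S43.Tower
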