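import Fermat.Agent.S43.Geo.Contract
import Fermat.Agent.S43.GMA.CH
import Fermat.Agent.GAL.Cyclo
import Fermat.Agent.MR.Glue.BLREll

/-!
# S43 / Tower / PGroup : the export `Geo.PGroupC`  (helper81)

* `PG.quad_nil` : for ANY level `n`, any `S`, any `g : G_ℚ`, `c d : ℤ` with `g² - c g + d = 0` on `E[p]` and `g μ = μ ^ d'` on `μ_p`
  (`d' ≡ d mod p`): `g² - c g + d` is nilpotent at every element of the generalised eigenspace `genKV n p S a`;
* `PG.inertia_unip` : `τ` in the inertia group of a place `A | s`, `s ≠ p`, `E[p]` unramified at `A`: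
  `((τ - 1)²)^N x = 0` for `x ∈ genKV n p S a`;
* `PG.inertia_pow` : there is `k` with `τ ^ p ^ k • x = x` for all `x ∈ genKV n p S a`;
* `pgroupC : Geo.PGroupC`.
-/

set_option autoImplicit false
set_option linter.unusedSectionVars false

noncomputable section

namespace Fermat.Agent.S43.Tower.PG

open AlgebraicCurve ModularCurve Fermat.Agent.S24 Fermat.Agent.GAL Fermat.Agent.GAL.Hecke
  Fermat.Agent.DR Fermat.Agent.MR.Glue Fermat.Agent.MR.E Fermat.Agent.S43.Geo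
open Polynomial

section abs

variable {V : Type*} [AddCommGroup V]

theorem zsmul_zero_of_dvd {p : ℕ} {x : V} (hx : p • x = 0) {z : ℤ} (hz : (p : ℤ) ∣ z) :
    z • x = 0 := by
  obtain ⟨k, rfl⟩ := hz
  rw [mul_comm, mul_smul, natCast_zsmul, hx, smul_zero]

theorem dvd_of_zsmul_zero {p : ℕ} (hp : p.Prime) {x : V} (hx : p • x = 0) (hx0 : x ≠ 0) {z : ℤ}
    (hz : z • x = 0) : (p : ℤ) ∣ z := by
  by_contra h
  obtain ⟨u, v, huv⟩ := (Nat.prime_iff_prime_int.mp hp).coprime_iff_not_dvd.mpr h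
  apply hx0
  have h1 : (u * (p : ℤ) + v * z) • x = 0 := by
    rw [add_smul, mul_smul, mul_smul, natCast_zsmul, hx, hz, smul_zero, smul_zero, add_zero]
  rw [huv, one_smul] at h1
  exact h1

/-- the abstract computation: `G² - T G + D = 0`, `(T - c')^N x = 0`, `c ≡ c'`, `d ≡ D` ⟹ `(G² - c G + d)^N x = 0`. -/
theorem quad_pow_apply {p : ℕ} (hV : ∀ x : V, p • x = 0) (G T : AddMonoid.End V) (hc : Commute G T)
    (D : ℕ) (hq : ∀ x, G (G x) - T (G x) + D • x = 0) (c c' d : ℤ) (hcc : (p : ℤ) ∣ c - c')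
    (hd : (p : ℤ) ∣ d - D) (N : ℕ) (x : V) (hx : ((T - (c' : AddMonoid.End V)) ^ N) x = 0) :
    ((Tower.quad c d G) ^ N) x = 0 := by
  have e : Tower.quad c d G = G * (T - (c' : AddMonoid.End V)) := by
    apply AddMonoidHom.ext
    intro y
    show G (G y) - c • G y + d • y = G (T y - c' • y)
    have h1 : G (T y) = T (G y) := DFunLike.congr_fun hc.eq y
    have h2 := hq y
    have h3 : c • G y = c' • G y := by
      have := zsmul_zero_of_dvd (hV (G y)) hcc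
      rwa [sub_smul, sub_eq_zero] at this
    have h4 : d • y = D • y := by
      have := zsmul_zero_of_dvd (hV y) hd
      rwa [sub_smul, sub_eq_zero, natCast_zsmul] at this
    have h5 : G (G y) = T (G y) - D • y := by
      rw [eq_sub_iff_add_eq, ← sub_eq_zero, ← h2]; abel
    rw [map_sub, map_zsmul, h1, h3, h4, h5]
    abel
  have hcm : Commute G (T - (c' : AddMonoid.End V)) := hc.sub_right (Int.cast_commute c' G).symm
  rw [e, hcm.mul_pow]
  show (G ^ N) (((T - (c' : AddMonoid.End V)) ^ N) x) = 0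
  rw [hx, map_zero]

theorem pow_smul_fixed {G : Type*} [Monoid G] [MulAction G V] {g : G} {x : V} (h : g • x = x)
    (m : ℕ) : g ^ m • x = x := by
  induction m with
  | zero => rw [pow_zero, one_smul]
  | succ m ih => rw [pow_succ, mul_smul, h, ih]

/-- `(G - 1)^m x = 0`, `m ≤ p ^ k`, `p V = 0` ⟹ `G ^ p ^ k x = x`. -/
theorem pow_p_apply {p : ℕ} (hp : p.Prime) (hV : ∀ x : V, p • x = 0) (G : AddMonoid.End V) {m k : ℕ}
    (hmk : m ≤ p ^ k) (x : V) (hx : ((G - 1) ^ m) x = 0) : (G ^ p ^ k) x = x := by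
  obtain ⟨r, hr⟩ := (Commute.one_right (G - 1)).exists_add_pow_prime_pow_eq hp k
  rw [sub_add_cancel, one_pow] at hr
  rw [hr]
  have h1 : ((G - 1) ^ p ^ k) x = 0 := by
    obtain ⟨j, hj⟩ := Nat.exists_eq_add_of_le hmk
    rw [hj, add_comm, pow_add]
    show ((G - 1) ^ j) (((G - 1) ^ m) x) = 0
    rw [hx, map_zero]
  have h2 : ((p : AddMonoid.End V) * (G - 1) * 1 * r) x = 0 := by
    rw [mul_assoc, mul_assoc]
    show (p : AddMonoid.End V) (((G - 1) * (1 * r)) x) = 0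
    rw [AddMonoid.End.natCast_apply]
    exact hV _
  show ((G - 1) ^ p ^ k) x + (1 : AddMonoid.End V) x + ((p : AddMonoid.End V) * (G - 1) * 1 * r) x = x
  rw [h1, h2, zero_add, add_zero]
  rfl

end abs

/-- membership in the generalised eigenspace, in the endomorphism ring. -/
theorem exists_pow_of_mem {n p : ℕ} [NeZero n] [NeZero p] {S : Finset ℕ} {a : ℕ → ℤ}
    {x : KV Kbar (FN n) p} (hx : x ∈ genKV n p S a) {ℓ : ℕ} (hℓ : ℓ.Prime) (hn : ¬ ℓ ∣ n)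
    (hS : ℓ ∉ S) :
    ∃ N : ℕ, ((CH.tE n p ℓ - ((a ℓ : ℤ) : AddMonoid.End (KV Kbar (FN n) p))) ^ N) x = 0 := by
  haveI : NeZero ℓ := ⟨hℓ.ne_zero⟩
  obtain ⟨k, hk⟩ := mem_genKV.1 hx ℓ hℓ hn hS
  refine ⟨k, ?_⟩
  have e : CH.tE n p ℓ - ((a ℓ : ℤ) : AddMonoid.End (KV Kbar (FN n) p)) = uKV n p ℓ (a ℓ) := by
    apply AddMonoidHom.ext
    intro y
    show CH.tE n p ℓ y - (a ℓ) • y = heckeT Kbar n ℓ p y - (a ℓ) • y
    rw [CH.tE_apply]
  rw [e, AddMonoid.End.coe_pow]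
  exact hk

/-- **QUAD**: a quadratic relation on `E[p]` (with the right determinant on `μ_p`) is nilpotent on the generalised eigenspace,
at any level. -/
theorem quad_nil (P : FreyPackage) [NeZero P.p] (W0 : WeierstrassCurve ℤ)
    (hW : W0.IsIntegralModelOf P.freyCurve) (n : ℕ) [NeZero n] (S : Finset ℕ) (g : GQ) (c d : ℤ)
    (d' : ℕ) (hd : (P.p : ℤ) ∣ d - d')
    (hE : ∀ y : Ep P, g • g • y - c • g • y + d • y = 0)
    (hμ : ∀ μ : Kbar, μ ^ P.p = 1 → g μ = μ ^ d') :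
    ∀ x ∈ genKV n P.p S W0.apOfModel, ∃ N : ℕ, ((Tower.quad c d (CH.gE n P.p g)) ^ N) x = 0 := by
  intro x hx
  obtain ⟨B, hB⟩ := frobMod_Ep P W0 hW
  obtain ⟨ℓ, b, hℓ, hℓS, hℓB, hℓn, hμ', hV, hX⟩ := CH.ch_common n P.p hB S g
  have hp0 : P.p ≠ 0 := P.pp.ne_zero
  -- `ℓ ^ b ≡ d'`
  have hD : (P.p : ℤ) ∣ d - ((ℓ ^ b : ℕ) : ℤ) := by
    have : NeZero ((P.p : ℕ) : Kbar) := ⟨Nat.cast_ne_zero.2 hp0⟩
    obtain ⟨ζ, hζ⟩ := HasEnoughRootsOfUnity.exists_primitiveRoot Kbar P.p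
    have h1 : ζ ^ (ℓ ^ b) = ζ ^ d' := by
      rw [← hμ' ζ hζ.pow_eq_one, hμ ζ hζ.pow_eq_one]
    have h2 : ℓ ^ b ≡ d' [MOD P.p] := by
      have h3 := (pow_eq_pow_iff_modEq (x := hζ.isUnit hp0 |>.unit) (n := ℓ ^ b) (m := d')).1
        (Units.ext (by simpa using h1))
      rwa [← orderOf_units, IsUnit.unit_spec, ← hζ.eq_orderOf] at h3
    have h4 : (P.p : ℤ) ∣ (d' : ℤ) - ((ℓ ^ b : ℕ) : ℤ) := Nat.modEq_iff_dvd.1 h2
    have h5 := dvd_add hd h4
    rwa [sub_add_sub_cancel] at h5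
  -- `luc(a_ℓ) ≡ c`
  have hc : (P.p : ℤ) ∣ c - (CH.luc ℓ b).eval (W0.apOfModel ℓ) := by
    obtain ⟨y0, hy0⟩ : ∃ y0 : Ep P, y0 ≠ 0 := by
      have hcard := card_Ep P
      by_contra hcon
      push Not at hcon
      have : Subsingleton (Ep P) := ⟨fun u v => by rw [hcon u, hcon v]⟩
      rw [Nat.card_of_subsingleton (0 : Ep P)] at hcard
      have := P.pp.one_lt
      nlinarith
    refine dvd_of_zsmul_zero P.pp (hB.tors y0) hy0 ?_
    have h1 := hE (g⁻¹ • y0)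
    have h2 := hX (g⁻¹ • y0)
    rw [smul_inv_smul] at h1 h2
    have h3 : d • (g⁻¹ • y0) = (ℓ ^ b) • (g⁻¹ • y0) := by
      have := zsmul_zero_of_dvd (hB.tors (g⁻¹ • y0)) hD
      rwa [sub_smul, sub_eq_zero, natCast_zsmul] at this
    rw [h3] at h1
    rw [sub_smul, sub_eq_zero]
    have h4 : (g • y0 - (CH.luc ℓ b).eval (W0.apOfModel ℓ) • y0 + (ℓ ^ b) • (g⁻¹ • y0))
        - (g • y0 - c • y0 + (ℓ ^ b) • (g⁻¹ • y0)) = 0 := by rw [h1, h2, sub_zero]
    rw [← sub_eq_zero, ← h4]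
    abel
  obtain ⟨N, hN⟩ := exists_pow_of_mem hx hℓ (fun h => hℓn (h.mul_right _)) hℓS
  refine ⟨N, ?_⟩
  refine quad_pow_apply (p := P.p) (fun y => KV.nsmul_eq_zero y) (CH.gE n P.p g)
    (aeval (CH.tE n P.p ℓ) (CH.luc ℓ b)) ?_ (ℓ ^ b) hV c _ d hc hD N x
    (CH.trace_sub_pow_apply n P.p ℓ _ _ N x hN)
  exact CH.hk_gE ∅ (CH.aeval_tE_mem_hk hℓ hℓn (Finset.notMem_empty _) _) g

/-- inertia at `s ≠ p` fixes `μ_p`. -/
theorem inertia_mu {A : ValuationSubring Kbar} {s m : ℕ} (hs : s.Prime) (hA : A.LiesOverPrime s)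
    (hsm : ¬ s ∣ m) {τ : GQ} (hτ : τ ∈ A.inertiaSubgroupIn ℚ) {z : Kbar} (hz : z ^ m = 1) :
    τ z = z := by
  have hm0 : m ≠ 0 := by rintro rfl; exact hsm (dvd_zero _)
  have hzA : z ∈ A := Cyclo.mem_of_pow_eq_one A hm0 hz
  exact Cyclo.eq_of_sub_mem_nonunits A hs hA hsm (by rw [← map_pow, hz, map_one]) hz
    (Cyclo.sub_mem_of_mem_inertia hτ hzA)

/-- `((τ - 1)²)^N x = 0`. -/
theorem inertia_unip (P : FreyPackage) [NeZero P.p] (W0 : WeierstrassCurve ℤ)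
    (hW : W0.IsIntegralModelOf P.freyCurve) (n : ℕ) [NeZero n] (S : Finset ℕ)
    {A : ValuationSubring Kbar} {s : ℕ} (hs : s.Prime) (hA : A.LiesOverPrime s) (hsp : s ≠ P.p)
    {τ : GQ} (hτ : τ ∈ A.inertiaSubgroupIn ℚ) (hun : ∀ y : Ep P, τ • y = y) :
    ∀ x ∈ genKV n P.p S W0.apOfModel, ∃ N : ℕ, ((Tower.quad 2 1 (CH.gE n P.p τ)) ^ N) x = 0 := by
  refine quad_nil P W0 hW n S τ 2 1 1 (by simp) (fun y => ?_) (fun μ hμ => ?_)
  · rw [hun, hun, one_smul, two_smul]; abel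
  · rw [pow_one]
    exact inertia_mu hs hA (fun h => hsp ((Nat.prime_dvd_prime_iff_eq hs P.pp).1 h)) hτ hμ

theorem finite_KV (n m : ℕ) [NeZero n] [NeZero m] : Finite (KV Kbar (FN n) m) := by
  obtain ⟨D⟩ := Fermat.Agent.GAL.Tors.nonempty_torsDatum' n
  exact Finite.of_equiv _ (D.e m).toEquiv

/-- the inertia group at `A | s`, `s ≠ p`, `E[p]` unramified at `A`, acts on the generalised eigenspace through a `p`-group. -/
theorem inertia_pow (P : FreyPackage) (W0 : WeierstrassCurve ℤ)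
    (hW : W0.IsIntegralModelOf P.freyCurve) (n : ℕ) [NeZero n] (S : Finset ℕ)
    {A : ValuationSubring Kbar} {s : ℕ} (hs : s.Prime) (hA : A.LiesOverPrime s) (hsp : s ≠ P.p)
    {τ : GQ} (hτ : τ ∈ A.inertiaSubgroupIn ℚ) (hun : ∀ y : Ep P, τ • y = y) :
    ∃ k : ℕ, ∀ x ∈ genKV n P.p S W0.apOfModel, τ ^ P.p ^ k • x = x := by
  haveI : NeZero P.p := ⟨P.pp.ne_zero⟩
  haveI := finite_KV n P.p
  have h1 : ∀ x : KV Kbar (FN n) P.p, ∃ k : ℕ, x ∈ genKV n P.p S W0.apOfModel →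
      τ ^ P.p ^ k • x = x := by
    intro x
    by_cases hx : x ∈ genKV n P.p S W0.apOfModel
    · obtain ⟨N, hN⟩ := inertia_unip P W0 hW n S hs hA hsp hτ hun x hx
      refine ⟨2 * N, fun _ => ?_⟩
      have e : Tower.quad 2 1 (CH.gE n P.p τ) = (CH.gE n P.p τ - 1) ^ 2 := by
        rw [Tower.quad]
        push_cast
        noncomm_ring
      rw [e, ← pow_mul] at hN
      have h2 := pow_p_apply P.pp (fun y => KV.nsmul_eq_zero y) (CH.gE n P.p τ)
        (Nat.lt_pow_self P.pp.one_lt).le x hN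
      rw [CH.gE_pow] at h2
      exact h2
    · exact ⟨0, fun h => absurd h hx⟩
  choose f hf using h1
  obtain ⟨K, hK⟩ := Finite.exists_le f
  refine ⟨K, fun x hx => ?_⟩
  obtain ⟨j, hj⟩ := Nat.exists_eq_add_of_le (hK x)
  rw [hj, pow_add, pow_mul]
  exact pow_smul_fixed (hf x hx) _

end Fermat.Agent.S43.Tower.PG

namespace Fermat.Agent.S43.Tower

open Fermat.Agent.S43.Geo

/-- **the export (v)** of `Geo/Contract.lean`. -/
theorem pgroupC : PGroupC := by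
  intro P W0 S M l _ _ h t ht τ hτ
  have hok := h.ok t ht
  refine PG.inertia_pow P W0 h.model (lev M l) S hok.prime hok.lies ?_ hτ (hok.unram τ hτ)
  intro hsp
  obtain ⟨e, he, hP⟩ := hok.ppow
  have h1 : P.p ∣ t.s - 1 := (hP ▸ dvd_pow_self P.p he.ne').trans hok.dvd
  have h2 := hok.prime.two_le
  have h3 := Nat.le_of_dvd (by omega) h1
  omega

end Fermat.Agent.S43.Tower
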