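import Fermat.Agent.S43.Tower.Conc

/-!
# S43 / TOWER / Step1 : one step of the tower (Theorem Y on the generalised eigenspaces)
-/

set_option autoImplicit false
set_option linter.unusedSectionVars false
set_option linter.style.haveILetI false

noncomputable section

namespace Fermat.Agent.S43.Tower

open AlgebraicCurve ModularCurve Fermat.Agent.S24 Fermat.Agent.GAL Fermat.Agent.GAL.Hecke
  Fermat.Agent.DR Fermat.Agent.DR.Hecke Fermat.Agent.S43.Size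
open Fermat.Agent.S43.Ctrl (opE)

/-! ### the Frobenius polynomials as endomorphisms -/

section poly

variable {X Y : Type*} [AddCommGroup X] [AddCommGroup Y]

/-- `e s Φ (Φ² - s²)² (Φ - 1)`. -/
def polYE (e s : ℤ) (Φ : AddMonoid.End X) : AddMonoid.End X :=
  (e : AddMonoid.End X) * ((s : AddMonoid.End X) * (Φ * ((Φ * Φ - ((s * s : ℤ) : AddMonoid.End X)) *
    ((Φ * Φ - ((s * s : ℤ) : AddMonoid.End X)) * (Φ - 1)))))

theorem polYE_apply (e s : ℤ) (Φ : AddMonoid.End X) (x : X) : polYE e s Φ x = e • polY s Φ x := rfl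

/-- `e s Φ (Φ² - s²)`. -/
def polIE (e s : ℤ) (Φ : AddMonoid.End X) : AddMonoid.End X :=
  (e : AddMonoid.End X) * ((s : AddMonoid.End X) * (Φ * (Φ * Φ - ((s * s : ℤ) : AddMonoid.End X))))

theorem polIE_apply (e s : ℤ) (Φ : AddMonoid.End X) (x : X) : polIE e s Φ x = e • polI s Φ x := rfl

theorem commute_polYE {T Φ : AddMonoid.End X} (h : Commute T Φ) (e s : ℤ) : Commute T (polYE e s Φ) := by
  have h2 : Commute T (Φ * Φ - ((s * s : ℤ) : AddMonoid.End X)) :=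
    (h.mul_right h).sub_right (Int.commute_cast T _)
  exact (Int.commute_cast T e).mul_right ((Int.commute_cast T s).mul_right (h.mul_right
    (h2.mul_right (h2.mul_right (h.sub_right (Commute.one_right T))))))

theorem commute_polIE {T Φ : AddMonoid.End X} (h : Commute T Φ) (e s : ℤ) : Commute T (polIE e s Φ) := by
  have h2 : Commute T (Φ * Φ - ((s * s : ℤ) : AddMonoid.End X)) :=
    (h.mul_right h).sub_right (Int.commute_cast T _)
  exact (Int.commute_cast T e).mul_right ((Int.commute_cast T s).mul_right (h.mul_right h2))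

theorem opE_memW (W : AddSubgroup X) (s : ℤ) (Φ : X →+ X) (hW : ∀ x ∈ W, Φ x ∈ W) {x : X} (hx : x ∈ W) :
    opE s Φ x ∈ W :=
  W.sub_mem (hW _ (hW _ hx)) (W.zsmul_mem hx _)

theorem polY_mem (W : AddSubgroup X) (s : ℤ) (Φ : X →+ X) (hW : ∀ x ∈ W, Φ x ∈ W) {x : X} (hx : x ∈ W) :
    polY s Φ x ∈ W :=
  W.zsmul_mem (hW _ (opE_memW W s Φ hW (opE_memW W s Φ hW (W.sub_mem (hW _ hx) hx)))) _

theorem polI_mem (W : AddSubgroup X) (s : ℤ) (Φ : X →+ X) (hW : ∀ x ∈ W, Φ x ∈ W) {x : X} (hx : x ∈ W) :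
    polI s Φ x ∈ W :=
  W.zsmul_mem (hW _ (opE_memW W s Φ hW hx)) _

theorem map_opE (f : Y →+ X) (s : ℤ) (ΦY : Y →+ Y) (Φ : X →+ X) (h : ∀ y, f (ΦY y) = Φ (f y)) (y : Y) :
    f (opE s ΦY y) = opE s Φ (f y) := by
  simp only [opE, map_sub, map_zsmul, h]

theorem map_polI (f : Y →+ X) (s : ℤ) (ΦY : Y →+ Y) (Φ : X →+ X) (h : ∀ y, f (ΦY y) = Φ (f y)) (y : Y) :
    f (polI s ΦY y) = polI s Φ (f y) := by
  simp only [polI, map_zsmul, h, map_opE f s ΦY Φ h]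

/-- `e y = 0`, `p y = 0`, `p ∤ e` imply `y = 0`. -/
theorem eq_zero_of_zsmul {p : ℕ} (hp : p.Prime) {e : ℤ} (he : ¬ (p : ℤ) ∣ e) {y : X} (h1 : e • y = 0)
    (h2 : p • y = 0) : y = 0 := by
  have hc : IsCoprime (p : ℤ) e :=
    (Prime.coprime_iff_not_dvd (Nat.prime_iff_prime_int.1 hp)).2 he
  obtain ⟨u, v, huv⟩ := hc
  have : ((u * p + v * e : ℤ)) • y = 0 := by
    rw [add_smul, mul_smul, mul_smul, h1, natCast_zsmul, h2, smul_zero, smul_zero, add_zero]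
  rwa [huv, one_smul] at this

end poly

theorem conj_inv_mem_inertia {A : ValuationSubring Kbar} {φ τ : GQ} (hφ : φ ∈ A.decompositionSubgroup ℚ)
    (hτ : τ ∈ A.inertiaSubgroupIn ℚ) : φ⁻¹ * τ * φ ∈ A.inertiaSubgroupIn ℚ := by
  obtain ⟨t, ht, rfl⟩ := hτ
  refine ⟨(⟨φ, hφ⟩ : A.decompositionSubgroup ℚ)⁻¹ * t * ⟨φ, hφ⟩, ?_, rfl⟩
  have hn : (A.inertiaSubgroup ℚ).Normal := MonoidHom.normal_ker _
  have h := hn.conj_mem t ht (⟨φ, hφ⟩ : A.decompositionSubgroup ℚ)⁻¹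
  simpa using h

/-! ### basic facts on `TT`, `genKV` -/

section basic

variable {p : ℕ} {S : Finset ℕ} {a : ℕ → ℤ}

theorem heckeTtot_smul (n : ℕ) [NeZero n] (p ℓ : ℕ) (g : GQ) (x : KV Kbar (FN n) p) :
    heckeTtot n p ℓ (g • x) = g • heckeTtot n p ℓ x := by
  by_cases h : ℓ = 0
  · subst h
    simp [heckeTtot]
  · haveI : NeZero ℓ := ⟨h⟩
    rw [heckeTtot_eq]
    exact heckeT_galois_smul n ℓ p g x

theorem TT_fr (n : ℕ) [NeZero n] (i : Pri S) (g : GQ) : Commute (TT n p S i) (fr n p g) :=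
  AddMonoidHom.ext fun x => heckeTtot_smul n p i.1 g x

theorem TT_comm (hB : Basic p) (n : ℕ) [NeZero n] (hS : ∀ r : ℕ, r.Prime → r ∣ n → r ∈ S) (i j : Pri S) :
    Commute (TT n p S i) (TT n p S j) :=
  AddMonoidHom.ext fun x => hB.comm n i.2.1 j.2.1 (fun h => i.2.2 (hS _ i.2.1 h))
    (fun h => j.2.2 (hS _ j.2.1 h)) x

theorem smul_mem_genKV (n : ℕ) [NeZero n] (g : GQ) {x : KV Kbar (FN n) p} (hx : x ∈ genKV n p S a) :
    g • x ∈ genKV n p S a :=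
  gen_stable (E := fr n p g) (fun i => TT_fr n i g) hx

end basic

/-! ### one step -/

section step

variable (p : ℕ) (S : Finset ℕ) (a : ℕ → ℤ) (L s : ℕ) [NeZero L] [NeZero s]

/-- `δ (z0, z1, z2) = π_1^* z0 + π_s^* z1 + π_{s²}^* z2`. -/
def dlt3 : KV Kbar (FN L) p × KV Kbar (FN L) p × KV Kbar (FN L) p →+ KV Kbar (FN (L * s * s)) p :=
  (pull1 L s p).comp (AddMonoidHom.fst _ _) +
    (pullS L s p).comp ((AddMonoidHom.fst _ _).comp (AddMonoidHom.snd _ _)) +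
    (pullS2 L s p).comp ((AddMonoidHom.snd _ _).comp (AddMonoidHom.snd _ _))

theorem dlt3_apply (y : KV Kbar (FN L) p × KV Kbar (FN L) p × KV Kbar (FN L) p) :
    dlt3 p L s y = pull1 L s p y.1 + pullS L s p y.2.1 + pullS2 L s p y.2.2 := rfl

theorem dlt3_smul (g : GQ) (y : KV Kbar (FN L) p × KV Kbar (FN L) p × KV Kbar (FN L) p) :
    dlt3 p L s (g • y) = g • dlt3 p L s y := by
  rw [dlt3_apply, dlt3_apply, smul_add, smul_add]
  simp only [pull1, pullS, pullS2, AddMonoidHom.comp_apply, Prod.smul_fst, Prod.smul_snd, aPull_smul,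
    bPull_smul]

/-- the diagonal Hecke operators on triples. -/
def TY (i : Pri S) : AddMonoid.End (KV Kbar (FN L) p × KV Kbar (FN L) p × KV Kbar (FN L) p) :=
  (TT L p S i).prodMap ((TT L p S i).prodMap (TT L p S i))

variable {p S a L s}

theorem not_dvd_of_pri (hpS : p ∈ S) (hp : p.Prime) {n : ℕ} (hS : ∀ r : ℕ, r.Prime → r ∣ n → r ∈ S)
    (i : Pri S) : ¬ i.1 ∣ n * p := by
  intro h
  rcases i.2.1.dvd_mul.1 h with h | h
  · exact i.2.2 (hS _ i.2.1 h)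
  · exact i.2.2 (((Nat.prime_dvd_prime_iff_eq i.2.1 hp).1 h) ▸ hpS)

theorem TT_dlt3 (hB : Basic p) (hp : p.Prime) (hpS : p ∈ S)
    (hS : ∀ r : ℕ, r.Prime → r ∣ L * s * s → r ∈ S) (i : Pri S)
    (y : KV Kbar (FN L) p × KV Kbar (FN L) p × KV Kbar (FN L) p) :
    TT (L * s * s) p S i (dlt3 p L s y) = dlt3 p L s (TY p S L i y) := by
  have h2 : ¬ i.1 ∣ L * s * s * p := not_dvd_of_pri hpS hp hS i
  have h1 : ¬ i.1 ∣ L * s * p :=
    not_dvd_of_pri hpS hp (fun r hr h => hS r hr (h.mul_right s)) i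
  rw [dlt3_apply, dlt3_apply]
  show heckeTtot (L * s * s) p i.1 _ = pull1 L s p (heckeTtot L p i.1 y.1) +
    pullS L s p (heckeTtot L p i.1 y.2.1) + pullS2 L s p (heckeTtot L p i.1 y.2.2)
  simp only [pull1, pullS, pullS2, AddMonoidHom.comp_apply, map_add, hB.aT L s i.2.1 h1,
    hB.bT L s i.2.1 h1, hB.aT (L * s) s i.2.1 h2, hB.bT (L * s) s i.2.1 h2]

/-- the triples of elements of the generalised eigenspace. -/
def gen3 (p : ℕ) (S : Finset ℕ) (a : ℕ → ℤ) (L : ℕ) [NeZero L] :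
    AddSubgroup (KV Kbar (FN L) p × KV Kbar (FN L) p × KV Kbar (FN L) p) :=
  (genKV L p S a).prod ((genKV L p S a).prod (genKV L p S a))

theorem gen_TY_le : gen (TY p S L) (fun ℓ => a ℓ.1) ≤ gen3 p S a L := by
  intro y hy
  refine ⟨?_, ?_, ?_⟩
  · exact map_mem_gen (AddMonoidHom.fst _ _) (T := TT L p S) (fun _ _ => rfl) hy
  · exact map_mem_gen ((AddMonoidHom.fst _ _).comp (AddMonoidHom.snd _ _)) (T := TT L p S)
      (fun _ _ => rfl) hy
  · exact map_mem_gen ((AddMonoidHom.snd _ _).comp (AddMonoidHom.snd _ _)) (T := TT L p S)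
      (fun _ _ => rfl) hy

/-- the hypotheses on one Taylor-Wiles prime `s` (place `A`, Frobenius `φ`) at the level `L`. -/
structure StepHyp (p : ℕ) (S : Finset ℕ) (a : ℕ → ℤ) (L s : ℕ) [NeZero L] [NeZero s]
    (A : ValuationSubring Kbar) (φ : GQ) (e : ℤ) : Prop where
  hp : p.Prime
  hpS : p ∈ S
  hS : ∀ r : ℕ, r.Prime → r ∣ L * s * s → r ∈ S
  hφ : A.IsFrobeniusAt φ s
  he : ¬ (p : ℤ) ∣ e
  hs1 : (p : ℤ) ∣ (s : ℤ) - 1
  ht : ¬ (p : ℤ) ∣ a s ^ 2 - 4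
  hQ : QuadAt p S a s φ
  hY1 : ∀ x : KV Kbar (FN (L * s * s)) p, (∀ σ ∈ A.inertiaSubgroupIn ℚ, σ • x = x) →
    ∃ z0 z1 z2 : KV Kbar (FN L) p,
      e • polY (s : ℤ) (fr (L * s * s) p φ) x = pull1 L s p z0 + pullS L s p z1 + pullS2 L s p z2
  hY2 : ∀ z0 z1 z2 : KV Kbar (FN L) p, pull1 L s p z0 + pullS L s p z1 + pullS2 L s p z2 = 0 →
    e • polI (s : ℤ) (fr L p φ) z0 = 0 ∧ e • polI (s : ℤ) (fr L p φ) z1 = 0 ∧
      e • polI (s : ℤ) (fr L p φ) z2 = 0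

variable {A : ValuationSubring Kbar} {φ : GQ} {e : ℤ}

theorem StepHyp.hSL (h : StepHyp p S a L s A φ e) : ∀ r : ℕ, r.Prime → r ∣ L → r ∈ S :=
  fun r hr hd => h.hS r hr ((hd.mul_right s).mul_right s)

/-- `e polI` is injective on the generalised eigenspace, any level `n`. -/
theorem StepHyp.polI_inj (h : StepHyp p S a L s A φ e) (n : ℕ) [NeZero n]
    (hn : ∀ r : ℕ, r.Prime → r ∣ n → r ∈ S) (x : KV Kbar (FN n) p) (hx : x ∈ genKV n p S a)
    (h0 : e • polI (s : ℤ) (fr n p φ) x = 0) : x = 0 := by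
  haveI : Fact p.Prime := ⟨h.hp⟩
  have hst : ∀ x ∈ genKV n p S a, fr n p φ x ∈ genKV n p S a := fun x hx => smul_mem_genKV n φ hx
  exact Tower.polI_inj p (a s) s (fr n p φ) (genKV n p S a) (fun x _ => KV.nsmul_eq_zero x) hst
    (h.hQ n hn) h.hs1 h.ht x hx (eq_zero_of_zsmul h.hp h.he h0 (KV.nsmul_eq_zero _))

theorem StepHyp.polY_inj (h : StepHyp p S a L s A φ e) (n : ℕ) [NeZero n]
    (hn : ∀ r : ℕ, r.Prime → r ∣ n → r ∈ S) (x : KV Kbar (FN n) p) (hx : x ∈ genKV n p S a)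
    (h0 : e • polY (s : ℤ) (fr n p φ) x = 0) : x = 0 := by
  haveI : Fact p.Prime := ⟨h.hp⟩
  have hst : ∀ x ∈ genKV n p S a, fr n p φ x ∈ genKV n p S a := fun x hx => smul_mem_genKV n φ hx
  exact Tower.polY_inj p (a s) s (fr n p φ) (genKV n p S a) (fun x _ => KV.nsmul_eq_zero x) hst
    (h.hQ n hn) h.hs1 h.ht x hx (eq_zero_of_zsmul h.hp h.he h0 (KV.nsmul_eq_zero _))

/-- **injectivity of `δ`** on the generalised eigenspaces. -/
theorem StepHyp.inj (h : StepHyp p S a L s A φ e)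
    (y : KV Kbar (FN L) p × KV Kbar (FN L) p × KV Kbar (FN L) p) (hy : y ∈ gen3 p S a L)
    (h0 : dlt3 p L s y = 0) : y = 0 := by
  obtain ⟨e0, e1, e2⟩ := h.hY2 y.1 y.2.1 y.2.2 h0
  exact Prod.ext (h.polI_inj L h.hSL _ hy.1 e0)
    (Prod.ext (h.polI_inj L h.hSL _ hy.2.1 e1) (h.polI_inj L h.hSL _ hy.2.2 e2))

/-- **Theorem Y on the generalised eigenspaces.** -/
theorem StepHyp.ctrl (hB : Basic p) (h : StepHyp p S a L s A φ e) (x : KV Kbar (FN (L * s * s)) p)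
    (hx : x ∈ genKV (L * s * s) p S a) (hI : ∀ σ ∈ A.inertiaSubgroupIn ℚ, σ • x = x) :
    ∃ y ∈ gen3 p S a L, x = dlt3 p L s y := by
  haveI := hB.fin (L * s * s)
  have hVI : ∀ x ∈ inv (A.inertiaSubgroupIn ℚ : Set GQ) (KV Kbar (FN (L * s * s)) p),
      fr (L * s * s) p φ x ∈ inv (A.inertiaSubgroupIn ℚ : Set GQ) (KV Kbar (FN (L * s * s)) p) := by
    intro x hx τ hτ
    have h1 := hx _ (conj_inv_mem_inertia h.hφ.mem_decompositionSubgroup hτ)
    rw [fr_apply]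
    calc τ • φ • x = φ • (φ⁻¹ * τ * φ) • x := by
          rw [← mul_smul, ← mul_smul]; congr 1; group
      _ = φ • x := by rw [h1]
  obtain ⟨y, hy, hxy⟩ := step_theta (T := TT (L * s * s) p S) (TY := TY p S L) (a := fun ℓ => a ℓ.1)
    (polYE e s (fr (L * s * s) p φ)) (polIE e s (fr (L * s * s) p φ))
    (polIE e s (DistribSMul.toAddMonoidHom _ φ)) (dlt3 p L s)
    (TT_dlt3 hB h.hp h.hpS h.hS)
    (fun y => by
      show e • polI (s : ℤ) (fr (L * s * s) p φ) (dlt3 p L s y) =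
        dlt3 p L s (e • polI (s : ℤ) (DistribSMul.toAddMonoidHom _ φ) y)
      rw [map_zsmul, map_polI (dlt3 p L s) s (DistribSMul.toAddMonoidHom _ φ) (fr (L * s * s) p φ)
        (fun y => dlt3_smul p L s φ y) y])
    (fun i => commute_polYE (TT_fr _ i φ) e s) (fun i => commute_polIE (TT_fr _ i φ) e s)
    (fun i => commute_polIE (AddMonoidHom.ext fun y => Prod.ext (heckeTtot_smul L p i.1 φ y.1)
      (Prod.ext (heckeTtot_smul L p i.1 φ y.2.1) (heckeTtot_smul L p i.1 φ y.2.2))) e s)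
    (inv (A.inertiaSubgroupIn ℚ : Set GQ) (KV Kbar (FN (L * s * s)) p))
    (fun x hx => AddSubgroup.zsmul_mem _ (polY_mem _ s _ hVI hx) e)
    (fun x hx => AddSubgroup.zsmul_mem _ (polI_mem _ s _ hVI hx) e)
    (fun x hx => by
      obtain ⟨z0, z1, z2, hz⟩ := h.hY1 x hx
      exact ⟨(z0, z1, z2), hz⟩)
    (fun y hy => by
      obtain ⟨e0, e1, e2⟩ := h.hY2 y.1 y.2.1 y.2.2 hy
      exact Prod.ext e0 (Prod.ext e1 e2))
    (fun x hx h0 => h.polY_inj _ h.hS x hx h0) (fun x hx h0 => h.polI_inj _ h.hS x hx h0)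
    x hI hx
  exact ⟨y, gen_TY_le hy, hxy⟩

end step

end Fermat.Agent.S43.Tower
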