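import Fermat.Agent.S43.Tower.Abs

/-!
# S43 / Tower / Tri : triples

`tri f` = `f` acting componentwise on `V × V × V`;  `gen (tri ∘ T) a = (gen T a)³`;
`del d1 ds dss` = the sum of three homomorphisms.
-/

set_option autoImplicit false

namespace Fermat.Agent.S43.Tower

variable {V V' : Type*} [AddCommGroup V] [AddCommGroup V'] {ι : Type*}

/-- `f` componentwise. -/
def tri (f : AddMonoid.End V) : AddMonoid.End (V × V × V) :=
  AddMonoidHom.prodMap f (AddMonoidHom.prodMap f f)

theorem tri_apply (f : AddMonoid.End V) (y : V × V × V) : tri f y = (f y.1, f y.2.1, f y.2.2) := rfl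

theorem tri_mul (f g : AddMonoid.End V) : tri f * tri g = tri (f * g) := rfl

theorem tri_one : tri (1 : AddMonoid.End V) = 1 := rfl

theorem tri_sub_smul (f : AddMonoid.End V) (c : ℤ) : tri f - c • 1 = tri (f - c • 1) := rfl

theorem tri_pow (f : AddMonoid.End V) (m : ℕ) : tri f ^ m = tri (f ^ m) := by
  induction m with
  | zero => rfl
  | succ m ih => rw [pow_succ, ih, tri_mul, pow_succ]

theorem tri_commute {f g : AddMonoid.End V} (h : Commute f g) : Commute (tri f) (tri g) := by
  show tri f * tri g = tri g * tri f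
  rw [tri_mul, tri_mul, h.eq]

theorem mem_gen_tri {T : ι → AddMonoid.End V} {a : ι → ℤ} {y : V × V × V} :
    y ∈ gen (fun i => tri (T i)) a ↔ y.1 ∈ gen T a ∧ y.2.1 ∈ gen T a ∧ y.2.2 ∈ gen T a := by
  constructor
  · intro h
    refine ⟨fun i => ?_, fun i => ?_, fun i => ?_⟩ <;> obtain ⟨m, hm⟩ := h i <;> refine ⟨m, ?_⟩ <;>
      rw [tri_sub_smul, tri_pow, tri_apply] at hm
    · exact congrArg Prod.fst hm
    · exact congrArg (fun t => t.2.1) hm
    · exact congrArg (fun t => t.2.2) hm
  · rintro ⟨h1, h2, h3⟩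
    have key : ∀ z ∈ gen T a, ((z, 0, 0) : V × V × V) ∈ gen (fun i => tri (T i)) a ∧
        ((0, z, 0) : V × V × V) ∈ gen (fun i => tri (T i)) a ∧
        ((0, 0, z) : V × V × V) ∈ gen (fun i => tri (T i)) a := by
      intro z hz
      refine ⟨fun i => ?_, fun i => ?_, fun i => ?_⟩ <;> obtain ⟨m, hm⟩ := hz i <;>
        refine ⟨m, ?_⟩ <;> rw [tri_sub_smul, tri_pow, tri_apply] <;>
        simp only [hm, map_zero] <;> rfl
    have e : y = (y.1, 0, 0) + (0, y.2.1, 0) + (0, 0, y.2.2) := by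
      ext <;> simp
    rw [e]
    exact (gen _ a).add_mem ((gen _ a).add_mem (key _ h1).1 (key _ h2).2.1) (key _ h3).2.2

/-- the sum of three homomorphisms. -/
def del (d1 ds dss : V' →+ V) : V' × V' × V' →+ V :=
  AddMonoidHom.coprod d1 (AddMonoidHom.coprod ds dss)

theorem del_apply (d1 ds dss : V' →+ V) (y : V' × V' × V') :
    del d1 ds dss y = d1 y.1 + (ds y.2.1 + dss y.2.2) := rfl

theorem del_tri (d1 ds dss : V' →+ V) {f : AddMonoid.End V} {g : AddMonoid.End V'}
    (h1 : ∀ z, f (d1 z) = d1 (g z)) (hs : ∀ z, f (ds z) = ds (g z)) (hss : ∀ z, f (dss z) = dss (g z))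
    (y : V' × V' × V') : f (del d1 ds dss y) = del d1 ds dss (tri g y) := by
  rw [del_apply, del_apply, tri_apply, map_add, map_add, h1, hs, hss]

end Fermat.Agent.S43.Tower
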