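import Fermat.Agent.S43.Size.StepDefs
import Fermat.Agent.S43.Ctrl.Defs
import Fermat.Agent.S43.GMA.CH
import Fermat.Agent.S43.CHC.Frob
import Fermat.Agent.S43.Tower.Tri
import Fermat.Agent.S43.Tower.Frob
import Fermat.Agent.PT.Bridge.Levels
import Fermat.Agent.MR.Glue.BLREll

/-!
# S43 / Tower / Theta : Theorem Y on the `θ`-parts (from the raw operator form `Ctrl.CtrlStatement`)

`th N n D a = Size.th` = the generalised eigenspace of the `T_ℓ`, `ℓ ∤ D`, in `KV Kbar (FN N) n`.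

* `quad_nil`  : for `φ` acting on `μ_n` by `μ ↦ μ ^ s` there is `t : ℤ` with `φ² - t φ + s = 0` on `E[p]` and `φ² - t φ + s` nilpotent on
                every element of `th N n D a(W)`;
* `TWAt P s φ` : the Taylor--Wiles condition `t² ≢ 4 (mod p)`;
* `polY_inj_th`, `polI_inj_th` : the Frobenius polynomials of Theorem Y are injective on `th N n D a(W)`, `n = p ^ e`;
* `ctrl_th`   : **Theorem Y on the `θ`-parts** : an inertia invariant element of `th (L s s) n` is `d1 z0 + ds z1 + dss z2` with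
                `z_i ∈ th L n`, and `δ` is injective on `(th L n)³`.
-/

set_option autoImplicit false
set_option linter.unusedSectionVars false
set_option linter.style.haveILetI false

noncomputable section

namespace Fermat.Agent.S43.Tower

open scoped Pointwise

open AlgebraicCurve ModularCurve Fermat.Agent.S24 Fermat.Agent.GAL Fermat.Agent.MR.Glue
  Fermat.Agent.MR.E Fermat.Agent.S43.Size Fermat.Agent.S43.Ctrl Polynomial

theorem tE_eq_TT (N n D : ℕ) [NeZero N] [NeZero n] (ℓ : Idx D) : CH.tE N n ℓ.1 = TT N n D ℓ := by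
  haveI : NeZero ℓ.1 := ⟨ℓ.2.1.ne_zero⟩
  rw [CH.tE_eq]
  show _ = heckeTtot N n ℓ.1
  rw [heckeTtot_eq]

theorem gE_eq_frob (N n : ℕ) [NeZero N] [NeZero n] (φ : GQ) : CH.gE N n φ = frob n N φ := rfl

/-- congruent multiples act in the same way on a group killed by `n`. -/
theorem nsmul_eq_of_modEq {X : Type*} [AddCommGroup X] {n a b : ℕ} (h : a ≡ b [MOD n]) (x : X)
    (hx : n • x = 0) : a • x = b • x := by
  have h1 : (n : ℤ) ∣ (b : ℤ) - a := (Nat.modEq_iff_dvd.mp h)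
  obtain ⟨c, hc⟩ := h1
  have h2 : ((b : ℤ) - a) • x = 0 := by
    rw [hc, mul_comm, mul_smul, natCast_zsmul, hx, smul_zero]
  rw [sub_smul, natCast_zsmul, natCast_zsmul, sub_eq_zero] at h2
  exact h2.symm

/-- **The quadratic relation of `φ`**. -/
theorem quad_nil (P : FreyPackage) (W : WeierstrassCurve ℤ) (hW : W.IsIntegralModelOf P.freyCurve)
    (N n D s : ℕ) [NeZero N] [NeZero n] (hpn : P.p ∣ n) (hD0 : D ≠ 0) (φ : GQ)
    (hφμ : ∀ μ : Kbar, μ ^ n = 1 → φ μ = μ ^ s) :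
    ∃ t : ℤ, (∀ y : Ep P, φ • φ • y - t • φ • y + (s : ℤ) • y = 0) ∧
      ∀ x ∈ th N n D W.apOfModel, ∃ K : ℕ, (quad t s (frob n N φ) ^ K) x = 0 := by
  obtain ⟨B, hB⟩ := frobMod_Ep P W hW
  obtain ⟨ℓ, b, hℓ, hℓS, hℓB, hℓnm, hμ, hV, hE⟩ := CH.ch_common N n hB D.primeFactors φ
  have hℓD : ¬ ℓ ∣ D := fun h => hℓS (Nat.mem_primeFactors.mpr ⟨hℓ, h, hD0⟩)
  -- `ℓ ^ b ≡ s (mod n)`
  have hmod : ℓ ^ b ≡ s [MOD n] := by
    haveI : NeZero (n : Kbar) := ⟨Nat.cast_ne_zero.2 (NeZero.ne n)⟩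
    obtain ⟨ζ, hζ⟩ := HasEnoughRootsOfUnity.exists_primitiveRoot Kbar n
    have h1 : ζ ^ (ℓ ^ b) = ζ ^ s := by rw [← hμ ζ hζ.pow_eq_one, hφμ ζ hζ.pow_eq_one]
    have hζ0 : ζ ≠ 0 := hζ.ne_zero (NeZero.ne n)
    have h2 : ζ ^ ((s : ℤ) - ((ℓ ^ b : ℕ) : ℤ)) = 1 := by
      rw [zpow_sub₀ hζ0, zpow_natCast, zpow_natCast, h1, div_self (pow_ne_zero _ hζ0)]
    exact Nat.modEq_iff_dvd.mpr ((hζ.zpow_eq_one_iff_dvd _).mp h2)
  refine ⟨(CH.luc ℓ b).eval (W.apOfModel ℓ), fun y => ?_, fun x hx => ?_⟩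
  · have h1 := hE y
    have h2 : (ℓ ^ b) • y = s • y :=
      nsmul_eq_of_modEq (hmod.of_dvd hpn) y (hB.tors y)
    rw [h2] at h1
    rw [natCast_zsmul]
    exact h1
  · set t : ℤ := (CH.luc ℓ b).eval (W.apOfModel ℓ) with ht
    set ν : AddMonoid.End (KV Kbar (FN N) n) :=
      aeval (CH.tE N n ℓ) (CH.luc ℓ b) - (t : AddMonoid.End (KV Kbar (FN N) n)) with hν
    set Φ : AddMonoid.End (KV Kbar (FN N) n) := frob n N φ with hΦ
    have hq : quad t s Φ = ν * Φ := by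
      apply AddMonoidHom.ext
      intro z
      have h1 := hV z
      have h2 : (ℓ ^ b) • z = s • z := nsmul_eq_of_modEq hmod z (KV.nsmul_eq_zero z)
      rw [h2] at h1
      show φ • φ • z - t • φ • z + (s : ℤ) • z = aeval (CH.tE N n ℓ) (CH.luc ℓ b) (φ • z) - t • φ • z
      rw [natCast_zsmul]
      have h3 : φ • φ • z + s • z = aeval (CH.tE N n ℓ) (CH.luc ℓ b) (φ • z) := by
        rw [← sub_eq_zero, ← h1]; abel
      rw [← h3]; abel
    have hc : Commute ν Φ := by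
      have h1 : Commute (CH.gE N n φ) (aeval (CH.tE N n ℓ) (CH.luc ℓ b)) :=
        CH.hk_gE (∅ : Finset ℕ) (CH.aeval_tE_mem_hk hℓ hℓnm (Finset.notMem_empty _) _) φ
      exact (h1.symm).sub_left (Int.cast_commute t _)
    obtain ⟨K, hK⟩ := hx ⟨ℓ, hℓ, hℓD⟩
    refine ⟨K, ?_⟩
    rw [hq, hc.mul_pow, (hc.pow_pow K K).eq]
    show (Φ ^ K) ((ν ^ K) x) = 0
    have h4 : (ν ^ K) x = 0 := by
      apply CH.trace_sub_pow_apply
      rw [tE_eq_TT N n D ⟨ℓ, hℓ, hℓD⟩, ← zsmul_one]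
      exact hK
    rw [h4, map_zero]

/-- **The Taylor--Wiles condition** at `φ` (a Frobenius at `s`): the discriminant of `ρ̄(φ)` is not zero. -/
def TWAt (P : FreyPackage) (s : ℕ) (φ : GQ) : Prop :=
  ∀ t : ℤ, (∀ y : Ep P, φ • φ • y - t • φ • y + (s : ℤ) • y = 0) → ¬ (P.p : ℤ) ∣ t ^ 2 - 4

section ops

variable {X : Type*} [AddCommGroup X]

/-- `polY` as an endomorphism. -/
def EY (s : ℤ) (Φ : AddMonoid.End X) : AddMonoid.End X :=
  s • (Φ * ((Φ * Φ - (s * s) • 1) * ((Φ * Φ - (s * s) • 1) * (Φ - 1))))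

/-- `polI` as an endomorphism. -/
def EI (s : ℤ) (Φ : AddMonoid.End X) : AddMonoid.End X := s • (Φ * (Φ * Φ - (s * s) • 1))

theorem EY_apply (s : ℤ) (Φ : AddMonoid.End X) (x : X) : EY s Φ x = polY s Φ x := rfl

theorem EI_apply (s : ℤ) (Φ : AddMonoid.End X) (x : X) : EI s Φ x = polI s Φ x := rfl

theorem commute_EI {T Φ : AddMonoid.End X} (h : Commute T Φ) (s : ℤ) : Commute T (EI s Φ) :=
  (h.mul_right ((h.mul_right h).sub_right ((Commute.one_right T).smul_right _))).smul_right s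

theorem commute_EY {T Φ : AddMonoid.End X} (h : Commute T Φ) (s : ℤ) : Commute T (EY s Φ) := by
  have h1 : Commute T (Φ * Φ - (s * s) • 1) :=
    (h.mul_right h).sub_right ((Commute.one_right T).smul_right _)
  exact (h.mul_right (h1.mul_right (h1.mul_right (h.sub_right (Commute.one_right T))))).smul_right s

/-- a non zero element killed by `p ^ e` has a non zero multiple killed by `p`. -/
theorem exists_ptors (p e : ℕ) (x : X) (hx : p ^ e • x = 0) (hx0 : x ≠ 0) :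
    ∃ j : ℕ, p ^ j • x ≠ 0 ∧ p • (p ^ j • x) = 0 := by
  classical
  have hex : ∃ j : ℕ, p ^ j • x = 0 := ⟨e, hx⟩
  have hspec := Nat.find_spec hex
  have hpos : Nat.find hex ≠ 0 := by
    intro h0
    rw [h0, pow_zero, one_smul] at hspec
    exact hx0 hspec
  obtain ⟨j, hj⟩ := Nat.exists_eq_succ_of_ne_zero hpos
  refine ⟨j, Nat.find_min hex (by omega), ?_⟩
  rw [smul_smul, ← pow_succ', ← Nat.succ_eq_add_one, ← hj]
  exact hspec

/-- an endomorphism which is injective on the `p`-torsion of a subgroup killed by `p ^ e` is injective on it. -/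
theorem inj_of_inj_ptors (p e : ℕ) (U : AddSubgroup X) (hU : ∀ x ∈ U, p ^ e • x = 0)
    (E : AddMonoid.End X) (h : ∀ x ∈ U, p • x = 0 → E x = 0 → x = 0) (x : X) (hx : x ∈ U)
    (h0 : E x = 0) : x = 0 := by
  by_contra hx0
  obtain ⟨j, hj, hj'⟩ := exists_ptors p e x (hU x hx) hx0
  exact hj (h _ (U.nsmul_mem hx _) hj' (by rw [map_nsmul, h0, smul_zero]))

end ops

section inj

variable (P : FreyPackage) (W : WeierstrassCurve ℤ) (hW : W.IsIntegralModelOf P.freyCurve)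
  (N n D s e : ℕ) [NeZero N] (hn : n = P.p ^ (e + 1)) (hD0 : D ≠ 0) (φ : GQ)
  (hφμ : ∀ μ : Kbar, μ ^ n = 1 → φ μ = μ ^ s) (hs1 : (P.p : ℤ) ∣ (s : ℤ) - 1) (hTW : TWAt P s φ)

include hW hn hD0 hφμ hs1 hTW

/-- the common part of the two injectivity statements. -/
theorem pol_inj_th :
    (∀ x ∈ th N n D W.apOfModel, EY (s : ℤ) (frob n N φ) x = 0 → x = 0) ∧
    (∀ x ∈ th N n D W.apOfModel, EI (s : ℤ) (frob n N φ) x = 0 → x = 0) := by
  haveI : Fact P.p.Prime := ⟨P.pp⟩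
  haveI : NeZero n := ⟨by rw [hn]; exact pow_ne_zero _ P.pp.ne_zero⟩
  have hpn : P.p ∣ n := by rw [hn, pow_succ]; exact dvd_mul_left _ _
  obtain ⟨t, ht1, ht2⟩ := quad_nil P W hW N n D s hpn hD0 φ hφμ
  have ht := hTW t ht1
  let U : AddSubgroup (KV Kbar (FN N) n) := th N n D W.apOfModel ⊓ (nsmulAddMonoidHom P.p).ker
  have hUp : ∀ x ∈ U, P.p • x = 0 := fun x hx => hx.2
  have hUφ : ∀ x ∈ U, frob n N φ x ∈ U := fun x hx =>
    ⟨smul_mem_th φ hx.1, by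
      show P.p • (φ • x) = 0
      rw [smul_comm, hUp x hx, smul_zero]⟩
  have hUq : ∀ x ∈ U, ∃ K : ℕ, (quad t s (frob n N φ) ^ K) x = 0 := fun x hx => ht2 x hx.1
  have hkill : ∀ x ∈ th N n D W.apOfModel, P.p ^ (e + 1) • x = 0 := fun x _ => by
    rw [← hn]; exact KV.nsmul_eq_zero x
  refine ⟨fun x hx h0 => ?_, fun x hx h0 => ?_⟩
  · exact inj_of_inj_ptors P.p (e + 1) _ hkill _
      (fun y hy hpy h => polY_inj P.p t s (frob n N φ) U hUp hUφ hUq hs1 ht y ⟨hy, hpy⟩ h) x hx h0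
  · exact inj_of_inj_ptors P.p (e + 1) _ hkill _
      (fun y hy hpy h => polI_inj P.p t s (frob n N φ) U hUp hUφ hUq hs1 ht y ⟨hy, hpy⟩ h) x hx h0

end inj

/-- a Frobenius element normalises the inertia group: the inertia invariants are stable. -/
theorem frob_mem_VI {A : ValuationSubring Kbar} {s N n : ℕ} {φ : GQ} (hφ : A.IsFrobeniusAt φ s)
    {x : KV Kbar (FN N) n} (hx : x ∈ VI A N n) : frob n N φ x ∈ VI A N n := by
  intro τ hτ
  have hdec : φ⁻¹ ∈ A.decompositionSubgroup ℚ := inv_mem hφ.mem_decompositionSubgroup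
  have h1 := Fermat.Agent.PT.Levels_conj_mem_inertiaSubgroupIn A φ⁻¹ τ hτ
  have h2 : φ⁻¹ • A = A := hdec
  rw [h2, inv_inv] at h1
  have h3 := hx _ h1
  show τ • φ • x = φ • x
  calc τ • φ • x = φ • (φ⁻¹ * τ * φ) • x := by
        rw [smul_smul, smul_smul]; congr 1; group
    _ = φ • x := by rw [h3]

section ops2

variable {X X' : Type*} [AddCommGroup X] [AddCommGroup X']

theorem EY_mem (s : ℤ) (Φ : AddMonoid.End X) (U : AddSubgroup X) (hU : ∀ x ∈ U, Φ x ∈ U) (x : X)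
    (hx : x ∈ U) : EY s Φ x ∈ U :=
  U.zsmul_mem (hU _ (opE_mem s Φ U hU _ (opE_mem s Φ U hU _ (U.sub_mem (hU _ hx) hx)))) s

theorem EI_mem (s : ℤ) (Φ : AddMonoid.End X) (U : AddSubgroup X) (hU : ∀ x ∈ U, Φ x ∈ U) (x : X)
    (hx : x ∈ U) : EI s Φ x ∈ U :=
  U.zsmul_mem (hU _ (opE_mem s Φ U hU _ hx)) s

theorem EI_intertwine (s : ℤ) {Φ : AddMonoid.End X} {Φ' : AddMonoid.End X'} (d : X' →+ X)
    (h : ∀ z, Φ (d z) = d (Φ' z)) (z : X') : EI s Φ (d z) = d (EI s Φ' z) := by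
  show s • Φ (Φ (Φ (d z)) - (s * s) • d z) = d (s • Φ' (Φ' (Φ' z) - (s * s) • z))
  simp only [map_zsmul, map_sub, h]

end ops2

theorem not_dvd_lvl {L s p D e ℓ : ℕ} (hℓ : ℓ.Prime) (hD : L * s * p ∣ D) (hℓD : ¬ ℓ ∣ D) :
    ¬ ℓ ∣ L * s * p ^ e ∧ ¬ ℓ ∣ L * s * s * p ^ e := by
  have h1 : ¬ ℓ ∣ L * s * p := fun h' => hℓD (h'.trans hD)
  have hL : ¬ ℓ ∣ L * s := fun h => h1 (h.mul_right p)
  have hs : ¬ ℓ ∣ s := fun h => hL (h.mul_left L)
  have hp : ¬ ℓ ∣ p ^ e := fun h => h1 ((hℓ.dvd_of_dvd_pow h).mul_left _)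
  exact ⟨fun h => (hℓ.dvd_mul.1 h).elim hL hp,
    fun h => (hℓ.dvd_mul.1 h).elim (fun h' => (hℓ.dvd_mul.1 h').elim hL hs) hp⟩

section hecke

variable {L s p D e : ℕ} [NeZero L] [NeZero s] (hp0 : p ≠ 0) (hD : L * s * p ∣ D) (ℓ : Idx D)

include hp0 hD

theorem TT_d1 (z : KV Kbar (FN L) (p ^ e)) :
    TT (L * s * s) (p ^ e) D ℓ (d1 L s (p ^ e) z) = d1 L s (p ^ e) (TT L (p ^ e) D ℓ z) := by
  obtain ⟨h1, h2⟩ := not_dvd_lvl (e := e) ℓ.2.1 hD ℓ.2.2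
  have hm : p ^ e ≠ 0 := pow_ne_zero _ hp0
  show heckeTtot (L * s * s) (p ^ e) ℓ.1 (DR.Hecke.aPull (L * s) s _ (DR.Hecke.aPull L s _ z)) =
    DR.Hecke.aPull (L * s) s _ (DR.Hecke.aPull L s _ (heckeTtot L (p ^ e) ℓ.1 z))
  rw [S41.Dual.aPull_heckeTtot L s _ hm ℓ.2.1 h1, S41.Dual.aPull_heckeTtot (L * s) s _ hm ℓ.2.1 h2]

theorem TT_ds (z : KV Kbar (FN L) (p ^ e)) :
    TT (L * s * s) (p ^ e) D ℓ (ds L s (p ^ e) z) = ds L s (p ^ e) (TT L (p ^ e) D ℓ z) := by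
  obtain ⟨h1, h2⟩ := not_dvd_lvl (e := e) ℓ.2.1 hD ℓ.2.2
  have hm : p ^ e ≠ 0 := pow_ne_zero _ hp0
  show heckeTtot (L * s * s) (p ^ e) ℓ.1 (DR.Hecke.aPull (L * s) s _ (DR.Hecke.bPull L s _ z)) =
    DR.Hecke.aPull (L * s) s _ (DR.Hecke.bPull L s _ (heckeTtot L (p ^ e) ℓ.1 z))
  rw [S41.Dual.bPull_heckeTtot L s _ hm ℓ.2.1 h1, S41.Dual.aPull_heckeTtot (L * s) s _ hm ℓ.2.1 h2]

theorem TT_dss (z : KV Kbar (FN L) (p ^ e)) :
    TT (L * s * s) (p ^ e) D ℓ (dss L s (p ^ e) z) = dss L s (p ^ e) (TT L (p ^ e) D ℓ z) := by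
  obtain ⟨h1, h2⟩ := not_dvd_lvl (e := e) ℓ.2.1 hD ℓ.2.2
  have hm : p ^ e ≠ 0 := pow_ne_zero _ hp0
  show heckeTtot (L * s * s) (p ^ e) ℓ.1 (DR.Hecke.bPull (L * s) s _ (DR.Hecke.bPull L s _ z)) =
    DR.Hecke.bPull (L * s) s _ (DR.Hecke.bPull L s _ (heckeTtot L (p ^ e) ℓ.1 z))
  rw [S41.Dual.bPull_heckeTtot L s _ hm ℓ.2.1 h1, S41.Dual.bPull_heckeTtot (L * s) s _ hm ℓ.2.1 h2]

end hecke

section galois

variable {L s n : ℕ} [NeZero L] [NeZero s] (φ : GQ)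

theorem frob_d1 (z : KV Kbar (FN L) n) : frob n (L * s * s) φ (d1 L s n z) = d1 L s n (frob n L φ z) := by
  show φ • DR.Hecke.aPull (L * s) s _ (DR.Hecke.aPull L s _ z) =
    DR.Hecke.aPull (L * s) s _ (DR.Hecke.aPull L s _ (φ • z))
  rw [DR.Hecke.aPull_smul, DR.Hecke.aPull_smul]

theorem frob_ds (z : KV Kbar (FN L) n) : frob n (L * s * s) φ (ds L s n z) = ds L s n (frob n L φ z) := by
  show φ • DR.Hecke.aPull (L * s) s _ (DR.Hecke.bPull L s _ z) =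
    DR.Hecke.aPull (L * s) s _ (DR.Hecke.bPull L s _ (φ • z))
  rw [DR.Hecke.bPull_smul, DR.Hecke.aPull_smul]

theorem frob_dss (z : KV Kbar (FN L) n) :
    frob n (L * s * s) φ (dss L s n z) = dss L s n (frob n L φ z) := by
  show φ • DR.Hecke.bPull (L * s) s _ (DR.Hecke.bPull L s _ z) =
    DR.Hecke.bPull (L * s) s _ (DR.Hecke.bPull L s _ (φ • z))
  rw [DR.Hecke.bPull_smul, DR.Hecke.bPull_smul]

theorem commute_TT_frob (N D : ℕ) [NeZero N] (ℓ : Idx D) :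
    Commute (TT N n D ℓ) (frob n N φ : AddMonoid.End (KV Kbar (FN N) n)) := by
  apply AddMonoidHom.ext
  intro y
  exact heckeTtot_smul ℓ.1 φ y

end galois

/-- **Theorem Y on the `θ`-parts.** -/
theorem ctrl_th (hC : CtrlStatement) (P : FreyPackage) (W : WeierstrassCurve ℤ)
    (hW : W.IsIntegralModelOf P.freyCurve) (L s D n e : ℕ) [NeZero L] [NeZero s] (hs : s.Prime)
    (hsL : ¬ s ∣ L) (hneat : 4 ∣ L ∨ 9 ∣ L) (A : ValuationSubring Kbar) (hA : A.LiesOverPrime s)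
    (hps : P.p ≠ s) (hn : n = P.p ^ (e + 1)) (hD : L * s * P.p ∣ D) (hD0 : D ≠ 0) (φ : GQ)
    (hφ : A.IsFrobeniusAt φ s) (hs1 : (P.p : ℤ) ∣ (s : ℤ) - 1) (hTW : TWAt P s φ) :
    (∀ x ∈ th (L * s * s) n D W.apOfModel, x ∈ VI A (L * s * s) n →
      ∃ z0 ∈ th L n D W.apOfModel, ∃ z1 ∈ th L n D W.apOfModel, ∃ z2 ∈ th L n D W.apOfModel,
        x = d1 L s n z0 + ds L s n z1 + dss L s n z2) ∧
    (∀ z0 ∈ th L n D W.apOfModel, ∀ z1 ∈ th L n D W.apOfModel, ∀ z2 ∈ th L n D W.apOfModel,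
      d1 L s n z0 + ds L s n z1 + dss L s n z2 = 0 → z0 = 0 ∧ z1 = 0 ∧ z2 = 0) := by
  subst hn
  obtain ⟨hmain, hinj⟩ := hC L s hs hsL hneat A hA P.p (e + 1) P.pp hps φ hφ
  have hsn : ¬ s ∣ P.p ^ (e + 1) := fun h =>
    hps ((Nat.prime_dvd_prime_iff_eq hs P.pp).mp (hs.dvd_of_dvd_pow h)).symm
  have hφμ : ∀ μ : Kbar, μ ^ (P.p ^ (e + 1)) = 1 → φ μ = μ ^ s := fun μ hμ =>
    CHC.frob_root hs hsn hA hφ hμ
  obtain ⟨hY1, hI1⟩ := pol_inj_th P W hW (L * s * s) _ D s e rfl hD0 φ hφμ hs1 hTW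
  obtain ⟨-, hI0⟩ := pol_inj_th P W hW L _ D s e rfl hD0 φ hφμ hs1 hTW
  set n := P.p ^ (e + 1) with hn
  haveI : Finite (KV Kbar (FN (L * s * s)) n) :=
    S41.Dual.finite_KV (L * s * s) n (pow_ne_zero _ P.pp.ne_zero)
  set Φ : AddMonoid.End (KV Kbar (FN (L * s * s)) n) := frob n (L * s * s) φ with hΦ
  set Φ' : AddMonoid.End (KV Kbar (FN L) n) := frob n L φ with hΦ'
  set δ := del (d1 L s n) (ds L s n) (dss L s n) with hδ
  have hinj' : ∀ y, δ y = 0 → tri (EI (s : ℤ) Φ') y = 0 := by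
    intro y hy
    rw [hδ, del_apply, ← add_assoc] at hy
    obtain ⟨h0, h1, h2⟩ := hinj y.1 y.2.1 y.2.2 hy
    rw [tri_apply]
    exact Prod.ext h0 (Prod.ext h1 h2)
  have hI0' : ∀ y ∈ gen (fun i => tri (TT L n D i)) (fun ℓ : Idx D => W.apOfModel ℓ.1),
      tri (EI (s : ℤ) Φ') y = 0 → y = 0 := by
    intro y hy h
    obtain ⟨g0, g1, g2⟩ := mem_gen_tri.mp hy
    rw [tri_apply] at h
    exact Prod.ext (hI0 _ g0 (congrArg Prod.fst h))
      (Prod.ext (hI0 _ g1 (congrArg (fun t => t.2.1) h)) (hI0 _ g2 (congrArg (fun t => t.2.2) h)))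
  refine ⟨fun x hx hxI => ?_, fun z0 h0 z1 h1 z2 h2 h => ?_⟩
  · obtain ⟨y, hy, hxy⟩ := step_theta (T := TT (L * s * s) n D)
      (TY := fun i => tri (TT L n D i)) (a := fun ℓ : Idx D => W.apOfModel ℓ.1)
      (EY (s : ℤ) Φ) (EI (s : ℤ) Φ) (tri (EI (s : ℤ) Φ')) δ
      (fun i y => del_tri _ _ _ (TT_d1 P.pp.ne_zero hD i) (TT_ds P.pp.ne_zero hD i)
        (TT_dss P.pp.ne_zero hD i) y)
      (fun y => del_tri _ _ _ (EI_intertwine _ _ (frob_d1 φ)) (EI_intertwine _ _ (frob_ds φ))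
        (EI_intertwine _ _ (frob_dss φ)) y)
      (fun i => commute_EY (commute_TT_frob φ _ D i) _)
      (fun i => commute_EI (commute_TT_frob φ _ D i) _)
      (fun i => tri_commute (commute_EI (commute_TT_frob φ _ D i) _))
      (VI A (L * s * s) n)
      (fun x hx => EY_mem _ _ _ (fun _ h => frob_mem_VI hφ h) x hx)
      (fun x hx => EI_mem _ _ _ (fun _ h => frob_mem_VI hφ h) x hx)
      (fun x hx => by
        obtain ⟨z0, z1, z2, hz⟩ := hmain x hx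
        exact ⟨(z0, z1, z2), by rw [hδ, del_apply, ← add_assoc]; exact hz⟩)
      hinj' hY1 hI1 x hxI hx
    obtain ⟨g0, g1, g2⟩ := mem_gen_tri.mp hy
    exact ⟨y.1, g0, y.2.1, g1, y.2.2, g2, by rw [hxy, hδ, del_apply, ← add_assoc]⟩
  · have hy : ((z0, z1, z2) : _ × _ × _) ∈
        gen (fun i => tri (TT L n D i)) (fun ℓ : Idx D => W.apOfModel ℓ.1) :=
      mem_gen_tri.mpr ⟨h0, h1, h2⟩
    have h3 := step_inj (tri (EI (s : ℤ) Φ')) δ hinj' hI0' _ hy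
      (by rw [hδ, del_apply, ← add_assoc]; exact h)
    exact ⟨congrArg Prod.fst h3, congrArg (fun t => t.2.1) h3, congrArg (fun t => t.2.2) h3⟩

end Fermat.Agent.S43.Tower
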